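import Fermat.Agent.Igusa.Down.Bdd
import Fermat.Agent.Igusa.Gauss
import Fermat.Agent.ModCurve.Fun.Field

/-!
# `Γ₀(N)`-invariant members of `intFun L R` as series in `q`
-/

set_option autoImplicit false

noncomputable section

open UpperHalfPlane hiding I
open Complex Filter Function Polynomial CongruenceSubgroup
open scoped Real Topology MatrixGroups Manifold ModularForm

namespace FermatAgent.Igusa.Down

open FermatAgent.Igusa FermatAgent.ModFun ModularCurve

variable {L : ℕ} [NeZero L] {R : Subring ℂ}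

theorem intExp_polyInt (P : R[X]) :
    intExp L R (polyInt L R P) = qExpand R L (gevC R P) := by
  have h : (intExp L R).comp (polyInt L R) = (qExpand R L).comp (gevC R) := by
    refine Polynomial.ringHom_ext (fun c => ?_) ?_
    · simp [polyInt, intExp_constHom, gevC]
    · simp [polyInt, intExp_jInt, gevC]
  exact RingHom.congr_fun h P

/-- A fixed element is a root of a monic polynomial of degree the index over `R[j]`, whose
coefficients are as bounded at `∞` as the translates of the element allow. -/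
theorem exists_coset_relation (H : Subgroup SL(2, ℤ)) [Fintype (SL(2, ℤ) ⧸ H)] (x : intFun L R)
    (hx : ∀ γ ∈ H, γ • x = x) :
    ∃ F : Polynomial R[X], F.Monic ∧ F.natDegree = Fintype.card (SL(2, ℤ) ⧸ H) ∧
      F.eval₂ (polyInt L R) x = 0 ∧
      ∀ e : ℤ, (∀ γ : SL(2, ℤ), Bdd e (intExp L R (γ • x))) → ∀ i : ℕ,
        Bdd (((Fintype.card (SL(2, ℤ) ⧸ H) : ℤ) - i) * e)
          (qExpand R L (gevC R (F.coeff i))) := by
  classical
  set G : Polynomial (intFun L R) := ∏ c : SL(2, ℤ) ⧸ H, (X - C (c.out • x)) with hG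
  have hmonic : G.Monic := monic_prod_of_monic _ _ fun c _ => monic_X_sub_C _
  have hdeg : G.natDegree = Fintype.card (SL(2, ℤ) ⧸ H) := by
    rw [hG, natDegree_prod_of_monic _ _ fun c _ => monic_X_sub_C _]
    simp
  have hinv : ∀ γ : SL(2, ℤ), G.map (MulSemiringAction.toRingHom _ (intFun L R) γ) = G := by
    intro γ
    rw [hG, Polynomial.map_prod]
    refine Fintype.prod_equiv (MulAction.toPerm γ) _ _ fun c => ?_
    simp only [Polynomial.map_sub, Polynomial.map_X, Polynomial.map_C,
      MulSemiringAction.toRingHom_apply, MulAction.toPerm_apply]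
    rw [smul_out_smul hx]
  have hlifts : G ∈ lifts (polyInt L R) := (lifts_iff_coeff_lifts G).mpr fun i => by
    obtain ⟨P, hP⟩ := exists_polyInt_eq L R (G.coeff i) fun γ => by
      conv_rhs => rw [← hinv γ, Polynomial.coeff_map]
      rfl
    exact ⟨P, hP⟩
  obtain ⟨F, hF, hFd, hFm⟩ := lifts_and_natDegree_eq_and_monic hlifts hmonic
  refine ⟨F, hFm, hFd.trans hdeg, ?_, fun e he i => ?_⟩
  · rw [eval₂_eq_eval_map, hF, hG, eval_prod]
    refine Finset.prod_eq_zero (Finset.mem_univ (QuotientGroup.mk 1)) ?_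
    have := QuotientGroup.eq.mp (QuotientGroup.out_eq' (QuotientGroup.mk 1 : SL(2, ℤ) ⧸ H))
    rw [mul_one, inv_mem_iff] at this
    rw [eval_sub, eval_X, eval_C, hx _ this, sub_self]
  · have h1 : qExpand R L (gevC R (F.coeff i)) =
        (∏ c : SL(2, ℤ) ⧸ H, (X - C (intExp L R (c.out • x)))).coeff i := by
      have h3 := congrArg (fun p : Polynomial (intFun L R) => (p.map (intExp L R)).coeff i) hF
      simp only [hG, Polynomial.map_prod, Polynomial.map_sub, Polynomial.map_X,
        Polynomial.map_C] at h3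
      rw [Polynomial.map_map, coeff_map, RingHom.comp_apply, intExp_polyInt] at h3
      exact h3
    rw [h1, ← Finset.card_univ]
    exact bdd_coeff_prod _ _ (fun c _ => he _) i

/-- A polynomial in `j` with bounded expansion has bounded degree. -/
theorem natDegree_le_of_bdd {P : R[X]} {e : ℕ} (h : Bdd ((L : ℤ) * e) (qExpand R L (gevC R P))) :
    P.natDegree ≤ e := by
  rcases eq_or_ne P 0 with rfl | hP
  · simp
  have hPC : P.map R.subtype ≠ 0 := by
    rwa [Polynomial.map_ne_zero_iff R.subtype_injective]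
  have hc : Bdd ((L : ℤ) * e) (qExpand ℂ L (gevC ℂ (P.map R.subtype))) := fun m hm => by
    rw [← coeffMap_gevC, ← coeffMap_qExpand, coeffMap_coeff, h m hm, map_zero]
  obtain ⟨h0, hle⟩ := qExpand_jqModC_transcendental ℂ L _ hPC
  have he : qExpand ℂ L (gevC ℂ (P.map R.subtype)) =
      aeval (qExpand ℂ L (jqModC ℂ)) (P.map R.subtype) := by
    rw [gevC_eq_aeval]
    exact (aeval_algHom_apply (qExpandAlgHomC ℂ L) (jqModC ℂ) _).symm
  rw [he, bdd_iff_le_order h0] at hc
  have hd : (P.map R.subtype).natDegree = P.natDegree :=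
    natDegree_map_eq_of_injective R.subtype_injective P
  rw [hd] at hle
  have hL : (0 : ℤ) < L := by exact_mod_cast NeZero.pos L
  have : (L : ℤ) * P.natDegree ≤ L * e := by omega
  exact_mod_cast le_of_mul_le_mul_left this hL

variable {N : ℕ} [NeZero N]

/-- An invariant integral function is the series in `q` of a member of the modular function
field, with coefficients in `R`. -/
theorem exists_series_of_invariant (g : intFun L R) (hg : ∀ γ ∈ Gamma0 N, γ • g = g) :
    ∃ s : LaurentSeries R, intExp L R g = qExpand R L s ∧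
      coeffMap R.subtype s ∈ modularFunctionFieldC ℂ N := by
  obtain ⟨hinv₀, hexp⟩ := (mem_intFun L R).mp g.2
  have hL : (0 : ℝ) < L := Nat.cast_pos.mpr (NeZero.pos L)
  let u : ℍ → ℍ := fun τ => (⟨((L : ℝ))⁻¹, inv_pos.mpr hL⟩ : {x : ℝ // 0 < x}) • τ
  have hu : ∀ τ, dil L (u τ) = τ := fun τ => by ext; simp [u, NeZero.ne L]
  have hmu : MDiff fun τ => (u τ : ℂ) := by
    simp only [u, coe_pos_real_smul, Complex.real_smul]
    exact mdifferentiable_const.mul mdifferentiable_coe
  have hall : ∀ γ : SL(2, ℤ), MDiff (compSmul γ (g : ℍ → ℂ)) ∧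
      IsTame (compSmul γ (g : ℍ → ℂ)) := fun γ => by
    obtain ⟨h1, -, h2⟩ := (hexp γ).1
    constructor
    · convert mdiff_comp h1 hmu using 1
      funext τ; simp [hu]
    · convert h2.comp (g := u) (inv_pos.mpr hL) (fun τ => by simp [u]) using 1
      funext τ; simp [hu]
  have hlev : (g : ℍ → ℂ) ∈ levelRing N := by
    refine ⟨by simpa [compSmul_one] using (hall 1).1, fun γ hγ τ => ?_, fun γ => (hall γ).2⟩
    conv_rhs => rw [← congrArg (fun f : intFun L R => (f : ℍ → ℂ) τ) (hg γ⁻¹ (inv_mem hγ))]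
    rw [smul_apply, inv_inv]
  have hcusp := levelRing_le_cuspRing N hlev
  have hq : qExp L (g : ℍ → ℂ) = qExpand ℂ L (qLaurent (g : ℍ → ℂ)) := by
    rw [qExp, qLaurent_comp_dil hcusp]
  have hcoeff : qLaurent (g : ℍ → ℂ) ∈ seriesSubring R := mem_seriesSubring.mpr fun n => by
    rw [← qExpand_coeff_mul L _ n, ← hq, ← coe_intExp_coeff]
    exact SetLike.coe_mem _
  obtain ⟨s, hs⟩ := hcoeff
  refine ⟨s, ?_, hs ▸ qLaurent_mem_pair hlev⟩
  apply coeffMap_injective R.subtype_injective
  rw [coeffMap_intExp, hq, ← hs, coeffMap_qExpand]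

variable {k : Type*} [Field k] (ρ : R →+* k)

/-- `j(N τ)` in `intFun L R`. -/
def thetaAt (hR : HasRoots L R) (hNL : N ∣ L) : intFun L R := ⟨jDil N, jDil_mem_intFun hR hNL⟩

theorem intExp_thetaAt (hR : HasRoots L R) (hNL : N ∣ L) :
    intExp L R (thetaAt hR hNL) = qExpand R L (jqNModC R N) := by
  apply coeffMap_injective R.subtype_injective
  rw [coeffMap_intExp, coeffMap_qExpand, coeffMap_jqNModC, jqNModC, qExpand_qExpand]
  exact qExp_jDil N

theorem redExp_thetaAt (hR : HasRoots L R) (hNL : N ∣ L) :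
    redExp L R ρ (thetaAt hR hNL) = qExpand k L (jqNModC k N) := by
  rw [redExp, RingHom.comp_apply, intExp_thetaAt, coeffMap_qExpand, coeffMap_jqNModC]

theorem smul_thetaAt (hR : HasRoots L R) (hNL : N ∣ L) {γ : SL(2, ℤ)} (hγ : γ ∈ Gamma0 N) :
    γ • thetaAt hR hNL = thetaAt hR hNL := by
  refine Subtype.ext (funext fun τ => jDil_smul_of_dvd N ?_ τ)
  have := inv_mem hγ
  rwa [Gamma0_mem, ZMod.intCast_zmod_eq_zero_iff_dvd] at this

include ρ in
/-- The modular equation over the residue field. -/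
theorem exists_monic_bEval_red (hR : HasRoots L R) (hNL : N ∣ L) :
    ∃ Φ : k[X][X], Φ.Monic ∧ Φ.natDegree = (Gamma0 N).index ∧ gev k N Φ = 0 := by
  have : Fintype (SL(2, ℤ) ⧸ Gamma0 N) := Fintype.ofFinite _
  obtain ⟨F, hFm, hFd, hF, -⟩ := exists_coset_relation (Gamma0 N) (thetaAt hR hNL)
    (fun γ hγ => smul_thetaAt hR hNL hγ)
  refine ⟨F.map (mapRingHom ρ), hFm.map _, ?_, qExpand_injective (R := k) L ?_⟩
  · rw [hFm.natDegree_map, hFd, Subgroup.index, Nat.card_eq_fintype_card]
  · have h := congrArg (intExp L R) hF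
    have hcomp : (intExp L R).comp (polyInt L R) = (qExpand R L).comp (gevC R) :=
      RingHom.ext intExp_polyInt
    rw [hom_eval₂, hcomp, intExp_thetaAt, map_zero, ← hom_eval₂] at h
    rw [← coeffMap_gev, show gev R N F = 0 from qExpand_injective (R := R) L (h.trans (map_zero _).symm),
      map_zero, map_zero]

end FermatAgent.Igusa.Down
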