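import Fermat.Agent.Igusa.Down.ResRing
import Fermat.Agent.Igusa.Down.LevelLift
import Fermat.Agent.Igusa.Fibre.Main

/-!
# Lifting functions of the special fibre with bounded poles
-/

set_option autoImplicit false
set_option linter.unusedSectionVars false
set_option linter.style.haveILetI false
set_option synthInstance.maxHeartbeats 100000

noncomputable section

open UpperHalfPlane hiding I
open Function Polynomial CongruenceSubgroup
open scoped MatrixGroups

namespace FermatAgent.Igusa.Down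

open FermatAgent.Igusa FermatAgent.ModFun ModularCurve

variable {L : ℕ} [NeZero L] {R : Subring ℂ} {k : Type*} [Field k] {ρ : R →+* k}

theorem smul_eq_neg_smul (γ : SL(2, ℤ)) (f : intFun L R) : (-γ) • f = γ • f := by
  refine Subtype.ext (funext fun τ => ?_)
  rw [smul_apply, smul_apply,
    show (-γ)⁻¹ = -γ⁻¹ from inv_eq_of_mul_eq_one_right (by simp), ModularGroup.SL_neg_smul]

theorem faithfulAction_of_hyp (hR : HasRoots L R) (hL : (L : ℂ)⁻¹ ∈ R) (h3 : 3 ≤ L)
    (hM : 2 ∣ L ∨ 3 ∣ L) (hD : decompGroup (M := L) ρ = ⊤) : FaithfulAction L ρ hD := by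
  intro γ hγ f
  have h := mem_gamma_of_toRes_smul_eq ρ hR hL h3 hM (γ := γ) fun x => by
    rw [← resSmul_toRes ρ hD, hγ]
  rcases h with h | h
  · exact smul_of_mem_gamma L R h f
  · rw [← smul_eq_neg_smul, smul_of_mem_gamma L R h f]

theorem resExp_comp_resPoly (hρ : Surjective ρ) :
    (resExp L R ρ).comp (resPoly L hρ) = (qExpand k L).comp (gevC k) := by
  refine RingHom.ext fun P => ?_
  rw [RingHom.comp_apply, RingHom.comp_apply, resExp_resPoly, gevC_eq_aeval]
  exact aeval_algHom_apply (qExpandAlgHomC k L) (jqModC k) P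

/-- A quotient of two elements of a normal domain, integral in a bigger field, lies in it. -/
theorem exists_eq_div_of_integral {A B E : Type*} [CommRing A] [CommRing B] [IsDomain B]
    [IsIntegrallyClosed B] [Field E] (f : B →+* E) (hf : Injective f) (ψ : A →+* B) (a b : B)
    {p : A[X]} (hp : p.Monic) (h0 : p.eval₂ (f.comp ψ) (f a / f b) = 0) :
    ∃ x : B, f x = f a / f b := by
  let φ : FractionRing B →+* E := IsFractionRing.lift hf
  have hφ : φ.comp (algebraMap B (FractionRing B)) = f :=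
    RingHom.ext fun c => IsFractionRing.lift_algebraMap hf c
  set z : FractionRing B := algebraMap B _ a / algebraMap B _ b with hzdef
  have hz : φ z = f a / f b := by
    rw [hzdef, map_div₀, IsFractionRing.lift_algebraMap, IsFractionRing.lift_algebraMap]
  have hzint : IsIntegral B z := by
    refine ⟨p.map ψ, hp.map _, φ.injective ?_⟩
    rw [map_zero, eval₂_map, hom_eval₂, hz, ← RingHom.comp_assoc, hφ, h0]
  obtain ⟨x, hx⟩ := IsIntegrallyClosed.isIntegral_iff.mp hzint
  exact ⟨x, by rw [← hz, ← hx, IsFractionRing.lift_algebraMap]⟩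

/-- Relations over `K[1/t]` do not depend on the embedding. -/
theorem transfer_relation {A B E : Type*} [CommRing A] [CommRing B] [IsDomain B] [Field E]
    (f g : B →+* E) (hf : Injective f) (hg : Injective g) (c : A →+* B) (t x : B)
    (hc : g.comp c = f.comp c) (ht : g t = f t) (n : ℕ) {p : A[X][X]}
    (h0 : p.eval₂ (eval₂RingHom (f.comp c) (f t)⁻¹) (f x / f t ^ n) = 0) :
    p.eval₂ (eval₂RingHom (f.comp c) (f t)⁻¹) (g x / f t ^ n) = 0 := by
  let φ : FractionRing B →+* E := IsFractionRing.lift hf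
  let χ : FractionRing B →+* E := IsFractionRing.lift hg
  set e := algebraMap B (FractionRing B)
  have hφ : ∀ b, φ (e b) = f b := IsFractionRing.lift_algebraMap hf
  have hχ : ∀ b, χ (e b) = g b := IsFractionRing.lift_algebraMap hg
  set θ : A[X] →+* FractionRing B := eval₂RingHom (e.comp c) (e t)⁻¹
  have h1 : φ.comp θ = eval₂RingHom (f.comp c) (f t)⁻¹ :=
    Polynomial.ringHom_ext (fun a => by simp [θ, hφ]) (by simp [θ, hφ])
  have h2 : χ.comp θ = eval₂RingHom (f.comp c) (f t)⁻¹ :=
    Polynomial.ringHom_ext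
      (fun a => by simp only [θ, RingHom.comp_apply, coe_eval₂RingHom, eval₂_C, hχ]
                   exact RingHom.congr_fun hc a)
      (by simp [θ, hχ, ht])
  have hrel : p.eval₂ θ (e x / e t ^ n) = 0 := φ.injective (by
    rw [map_zero, hom_eval₂, h1, map_div₀, map_pow, hφ, hφ, h0])
  have h3 := congrArg χ hrel
  rwa [map_zero, hom_eval₂, h2, map_div₀, map_pow, hχ, hχ, ht] at h3

variable {N : ℕ} [NeZero N] [IsAlgClosed k]

/-- A function on the special fibre which is integral over `k[j]` comes from a residual function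
fixed by `Γ₀(N)`. -/
theorem exists_res_of_integral (hρ : Surjective ρ) (hR : HasRoots L R) (hNL : N ∣ L)
    [IsIntegrallyClosed (Res L R ρ)] (hD : decompGroup (M := L) ρ = ⊤) {fb : LaurentSeries k}
    (hfield : ∃ P Q : k[X][X], gev k N Q ≠ 0 ∧ fb * gev k N Q = gev k N P)
    (hint : ∃ p : k[X][X], p.Monic ∧ p.eval₂ (gevC k) fb = 0) :
    ∃ x : Res L R ρ, resExp L R ρ x = qExpand k L fb ∧
      ∀ γ ∈ Gamma0 N, resSmul ρ hD γ x = x := by
  obtain ⟨P, Q, hQ, hPQ⟩ := hfield
  obtain ⟨p, hpm, hp⟩ := hint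
  have hev : ∀ T : k[X][X], resExp L R ρ (T.eval₂ (resPoly L hρ) (toRes L R ρ (thetaAt hR hNL))) =
      qExpand k L (gev k N T) := fun T => by
    rw [hom_eval₂, resExp_comp_resPoly, resExp_toRes, redExp_thetaAt, ← hom_eval₂]
    rfl
  set num : Res L R ρ := P.eval₂ (resPoly L hρ) (toRes L R ρ (thetaAt hR hNL)) with hnum
  set den : Res L R ρ := Q.eval₂ (resPoly L hρ) (toRes L R ρ (thetaAt hR hNL)) with hden
  have hnum' : resExp L R ρ num = qExpand k L (gev k N P) := hev P
  have hden' : resExp L R ρ den = qExpand k L (gev k N Q) := hev Q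
  have hden0 : den ≠ 0 := fun h => hQ (qExpand_injective (R := k) L
    (by rw [← hden', h, map_zero, map_zero]))
  have hdiv : resExp L R ρ num / resExp L R ρ den = qExpand k L fb := by
    rw [hnum', hden', ← hPQ, map_mul, mul_div_assoc, div_self, mul_one]
    exact fun h => hQ (qExpand_injective (R := k) L (h.trans (map_zero _).symm))
  obtain ⟨x, hx⟩ := exists_eq_div_of_integral (resExp L R ρ) (resExp_injective L R ρ)
    (resPoly L hρ) num den hpm (by
      rw [hdiv, resExp_comp_resPoly, ← hom_eval₂, hp, map_zero])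
  have hxe : resExp L R ρ x = qExpand k L fb := hx.trans hdiv
  refine ⟨x, hxe, fun γ hγ => ?_⟩
  have hmul : x * den = num := resExp_injective L R ρ (by
    rw [map_mul, hxe, hden', hnum', ← map_mul, hPQ])
  have hfix : ∀ T : k[X][X], resSmul ρ hD γ (T.eval₂ (resPoly L hρ)
      (toRes L R ρ (thetaAt hR hNL))) = T.eval₂ (resPoly L hρ) (toRes L R ρ (thetaAt hR hNL)) :=
    fun T => by
      rw [hom_eval₂, resSmul_toRes, smul_thetaAt hR hNL hγ]
      congr 1
      exact RingHom.ext fun q => resSmul_resPoly hρ hD γ q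
  apply mul_right_cancel₀ hden0
  have h1 : resSmul ρ hD γ (x * den) = num := by rw [hmul, hnum]; exact hfix P
  rw [map_mul, hden, hfix Q, ← hden] at h1
  rw [h1, hmul]

/-- The bound at `∞` of a residual function holds at every cusp. -/
theorem bdd_resExp_smul (hρ : Surjective ρ) (hD : decompGroup (M := L) ρ = ⊤) {fb : LaurentSeries k}
    {x : Res L R ρ} (hx : resExp L R ρ x = qExpand k L fb) {n : ℕ}
    (hinf : ∃ p : k[X][X], p.Monic ∧
      p.eval₂ (eval₂RingHom HahnSeries.C (jqModC k)⁻¹) (fb / jqModC k ^ n) = 0)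
    (γ : SL(2, ℤ)) : Bdd ((n : ℤ) * L) (resExp L R ρ (resSmul ρ hD γ x)) := by
  obtain ⟨p, hpm, hp⟩ := hinf
  set y := resExp L R ρ (resSmul ρ hD γ x) with hy
  have hC : (resExp L R ρ).comp (resConst L hρ) = (qExpand k L).comp HahnSeries.C :=
    RingHom.ext fun c => by
      rw [RingHom.comp_apply, RingHom.comp_apply, ← resPoly_C, ← gevC_C k c]
      exact RingHom.congr_fun (resExp_comp_resPoly hρ) (C c)
  have hJ' : resExp L R ρ (resPoly L hρ X) = qExpand k L (jqModC k) := by
    rw [← gevC_X k]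
    exact RingHom.congr_fun (resExp_comp_resPoly hρ) X
  have hθ : (qExpand k L).comp (eval₂RingHom HahnSeries.C (jqModC k)⁻¹) =
      eval₂RingHom ((resExp L R ρ).comp (resConst L hρ)) (resExp L R ρ (resPoly L hρ X))⁻¹ := by
    rw [hC, hJ']
    exact Polynomial.ringHom_ext (fun c => by simp) (by simp)
  have hrelγ : p.eval₂ ((qExpand k L).comp (eval₂RingHom HahnSeries.C (jqModC k)⁻¹))
      (y / qExpand k L (jqModC k) ^ n) = 0 := by
    rw [hθ, ← hJ', hy]
    refine transfer_relation (resExp L R ρ) ((resExp L R ρ).comp (resSmul ρ hD γ))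
      (resExp_injective L R ρ) ((resExp_injective L R ρ).comp (resSmul_injective ρ hD γ))
      (resConst L hρ) (resPoly L hρ X) x ?_ ?_ n ?_
    · refine RingHom.ext fun c => ?_
      simp only [RingHom.comp_apply, ← resPoly_C, resSmul_resPoly]
    · rw [RingHom.comp_apply, resSmul_resPoly]
    · rw [← hθ, hJ', hx, ← map_pow, ← map_div₀, ← hom_eval₂, hp, map_zero]
  have hcoef : ∀ q : k[X], Bdd (0 : ℤ) (eval₂RingHom HahnSeries.C (jqModC k)⁻¹ q) := fun q => by
    rw [coe_eval₂RingHom, eval₂_eq_sum, Polynomial.sum]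
    exact Bdd.sum _ fun i _ =>
      ((bdd_C _).mul ((bdd_inv_jqModC k).pow i)).mono (by simp)
  have hb : Bdd (0 : ℤ) (y / qExpand k L (jqModC k) ^ n) := by
    refine bdd_zero_of_monic (hpm.map ((qExpand k L).comp (eval₂RingHom HahnSeries.C (jqModC k)⁻¹)))
      (fun i => ?_) (by rw [← eval₂_eq_eval_map]; exact hrelγ)
    rw [coeff_map, RingHom.comp_apply]
    exact ((hcoef _).qExpand L).mono (by simp)
  have hJ : qExpand k L (jqModC k) ≠ 0 :=
    (map_ne_zero_iff _ (qExpand_injective (R := k) L)).mpr (jqModC_ne_zero_of_nontrivial k)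
  rw [show y = y / qExpand k L (jqModC k) ^ n * qExpand k L (jqModC k) ^ n from
    (div_mul_cancel₀ y (pow_ne_zero n hJ)).symm]
  exact (hb.mul ((bdd_jqModC.qExpand L).pow n)).mono (le_of_eq (by ring))

/-- **Lifting**: for large `n`, functions on the special fibre with poles bounded by `n` times the
cusps lift to integral series in the modular function field with the same bound. -/
theorem exists_lift_series (hρ : Surjective ρ) (hR : HasRoots L R) (hL : (L : ℂ)⁻¹ ∈ R)
    (h3 : 3 ≤ L) (hM : 2 ∣ L ∨ 3 ∣ L) (hNL : N ∣ L) :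
    ∃ n₀ : ℕ, ∀ (n : ℕ) (fb : LaurentSeries k), n₀ ≤ n →
      (∃ P Q : k[X][X], gev k N Q ≠ 0 ∧ fb * gev k N Q = gev k N P) →
      (∃ p : k[X][X], p.Monic ∧ p.eval₂ (gevC k) fb = 0) →
      (∃ p : k[X][X], p.Monic ∧
        p.eval₂ (eval₂RingHom HahnSeries.C (jqModC k)⁻¹) (fb / jqModC k ^ n) = 0) →
      ∃ (s : LaurentSeries R) (F : R[X][X]),
        coeffMap R.subtype s ∈ modularFunctionFieldC ℂ N ∧ coeffMap ρ s = fb ∧
        F.Monic ∧ F.eval₂ (gevC R) s = 0 ∧
        ∀ i ≤ F.natDegree, (F.coeff i).natDegree ≤ n * (F.natDegree - i) := by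
  classical
  haveI := isIntegrallyClosed_res ρ hR hL hρ h3 hM
  have hD := decompGroup_eq_top ρ hR hL
  have hker := faithfulAction_of_hyp hR hL h3 hM hD
  have hΓ : CongruenceSubgroup.Gamma L ≤ Gamma0 N := fun γ hγ => by
    rw [Gamma0_mem, ZMod.intCast_zmod_eq_zero_iff_dvd]
    exact dvd_of_mem_gamma hNL hγ
  have hneg : (-1 : SL(2, ℤ)) ∈ Gamma0 N := by simp [Gamma0_mem]
  obtain ⟨n₀, hn₀⟩ := exists_exact_lift (R := R) ρ hR hL h3 (Gamma0 N) hΓ hneg
  refine ⟨n₀, fun n fb hn hfield hint hinf => ?_⟩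
  obtain ⟨x, hx, hxfix⟩ := exists_res_of_integral hρ hR hNL hD hfield hint
  obtain ⟨f, hf, rfl⟩ := exists_invariant_lift hD hρ hker (Gamma0 N) hxfix
  have hbd : ∀ (γ : SL(2, ℤ)) (m : ℤ), m < -((n : ℤ) * L) →
      (redExp L R ρ (γ • f)).coeff m = 0 := by
    intro γ m hm
    rw [← resExp_toRes L R ρ, ← resSmul_toRes ρ hD]
    exact bdd_resExp_smul hρ hD hx hinf γ m hm
  obtain ⟨g, hg, hgf, hgb⟩ := hn₀ n hn f hf hbd
  obtain ⟨s, hs, hsC⟩ := exists_series_of_invariant g hg
  haveI : Fintype (SL(2, ℤ) ⧸ Gamma0 N) := Fintype.ofFinite _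
  obtain ⟨F, hFm, hFd, hF, hFb⟩ := exists_coset_relation (Gamma0 N) g hg
  refine ⟨s, F, hsC, ?_, hFm, ?_, fun i hi => ?_⟩
  · apply qExpand_injective (R := k) L
    rw [← hx, ← hgf, resExp_toRes, redExp, RingHom.comp_apply, hs, coeffMap_qExpand]
  · apply qExpand_injective (R := R) L
    have h := congrArg (intExp L R) hF
    rw [hom_eval₂, show (intExp L R).comp (polyInt L R) = (qExpand R L).comp (gevC R) from
      RingHom.ext intExp_polyInt, hs, map_zero, ← hom_eval₂] at h
    rw [h, map_zero]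
  · refine natDegree_le_of_bdd (L := L) ((hFb ((n : ℤ) * L) (fun γ m hm => hgb γ m hm) i).mono ?_)
    rw [hFd] at hi ⊢
    push_cast [Nat.cast_sub hi]
    exact le_of_eq (by ring)

end FermatAgent.Igusa.Down
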