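import Fermat.Agent.Igusa.UpperTriangular
import Fermat.Agent.ModCurve.Fun.BaseChange
import Fermat.Prelude.Def_FLTPrelim_Ramification
import Mathlib.RingTheory.LocalRing.ResidueField.Basic

/-!
# The level structure over a place of `ℚbar` above `ℓ ∤ N`
-/

set_option autoImplicit false

noncomputable section

open Polynomial Function

namespace FermatAgent.Igusa.Down

open FermatAgent.ModFun

theorem mem_of_eval_monic {K : Type*} [Field K] (A : ValuationSubring K) {x : K} {q : A[X]}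
    (hq : q.Monic) (hx : q.eval₂ A.subtype x = 0) : x ∈ A := by
  obtain ⟨a, ha⟩ := (IsIntegrallyClosed.isIntegral_iff (R := A) (K := K)).mp ⟨q, hq, hx⟩
  exact ha ▸ a.2

theorem isAlgClosed_residueField {K : Type*} [Field K] [IsAlgClosed K] (A : ValuationSubring K) :
    IsAlgClosed (IsLocalRing.ResidueField A) := by
  refine IsAlgClosed.of_exists_root _ fun p hp hirr => ?_
  obtain ⟨q, hq, hdeg, hqm⟩ := lifts_and_degree_eq_and_monic
    ((mem_lifts p).mpr (map_surjective _ IsLocalRing.residue_surjective p)) hp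
  obtain ⟨x, hx⟩ := IsAlgClosed.exists_root (q.map A.subtype) (by
    rw [degree_map_eq_of_injective A.subtype_injective, hdeg]
    exact (degree_pos_of_irreducible hirr).ne')
  have hx' : q.eval₂ A.subtype x = 0 := by rwa [IsRoot.def, eval_map] at hx
  refine ⟨IsLocalRing.residue A ⟨x, mem_of_eval_monic A hqm hx'⟩, ?_⟩
  have h0 : q.eval ⟨x, mem_of_eval_monic A hqm hx'⟩ = 0 :=
    A.subtype_injective (by rw [← eval₂_at_apply]; exact hx'.trans (map_zero _).symm)
  rw [← hq, eval_map, eval₂_at_apply, h0, map_zero]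

variable (A : ValuationSubring (AlgebraicClosure ℚ))

/-- The embedding of `A` into `ℂ`. -/
def aToC : A →+* ℂ := (qbarToC : AlgebraicClosure ℚ →+* ℂ).comp A.subtype

/-- The image of `A` in `ℂ`. -/
def cRing : Subring ℂ := (aToC A).range

/-- `A ≃ cRing A`. -/
def cEquiv : A ≃+* cRing A :=
  RingEquiv.ofBijective (aToC A).rangeRestrict
    ⟨fun _ _ h => ((qbarToC : AlgebraicClosure ℚ →+* ℂ).injective.comp A.subtype_injective)
      (congrArg Subtype.val h), (aToC A).rangeRestrict_surjective⟩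

theorem coe_cEquiv (a : A) : ((cEquiv A a : cRing A) : ℂ) = qbarToC (a : AlgebraicClosure ℚ) := rfl

theorem qbarToC_cEquiv_symm (r : cRing A) :
    qbarToC ((cEquiv A).symm r : AlgebraicClosure ℚ) = (r : ℂ) := by
  rw [← coe_cEquiv, RingEquiv.apply_symm_apply]

/-- Reduction on `cRing A`. -/
def cRes : cRing A →+* IsLocalRing.ResidueField A :=
  (IsLocalRing.residue A).comp ((cEquiv A).symm : cRing A →+* A)

theorem cRes_surjective : Surjective (cRes A) :=
  IsLocalRing.residue_surjective.comp (cEquiv A).symm.surjective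

theorem hasRoots_cRing (M : ℕ) [NeZero M] : HasRoots M (cRing A) := by
  intro r
  set z : ℂ := ((expUnit ((r : ℝ) / M) : ℂˣ) : ℂ) with hz
  have hzM : z ^ M = 1 := by
    have hM : (M : ℂ) ≠ 0 := Nat.cast_ne_zero.mpr (NeZero.ne M)
    rw [hz, expUnit, Units.val_mk0, ← Complex.exp_nat_mul]
    push_cast
    rw [show (M : ℂ) * (2 * (Real.pi : ℂ) * Complex.I * ((r : ℂ) / M)) =
      (r : ℂ) * (2 * (Real.pi : ℂ) * Complex.I) by field_simp]
    exact Complex.exp_int_mul_two_pi_mul_I r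
  have hroots : (X ^ M - 1 : (AlgebraicClosure ℚ)[X]).Splits :=
    IsAlgClosed.splits _
  have hne : (X ^ M - 1 : ℂ[X]) ≠ 0 := (monic_X_pow_sub_C 1 (NeZero.ne M)).ne_zero
  have hmem : z ∈ ((X ^ M - 1 : (AlgebraicClosure ℚ)[X]).map
      (qbarToC : AlgebraicClosure ℚ →+* ℂ)).roots := by
    rw [Polynomial.map_sub, Polynomial.map_pow, map_X, Polynomial.map_one, mem_roots hne]
    simp [hzM]
  rw [hroots.roots_map] at hmem
  obtain ⟨x, hx, hxz⟩ := Multiset.mem_map.mp hmem
  rw [mem_roots (by simpa using (monic_X_pow_sub_C (1 : AlgebraicClosure ℚ) (NeZero.ne M)).ne_zero)] at hx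
  have hxA : x ∈ A := mem_of_eval_monic A (monic_X_pow_sub_C (1 : A) (NeZero.ne M)) (by
    simpa [eval₂_sub, sub_eq_zero] using hx)
  exact ⟨⟨x, hxA⟩, hxz⟩

theorem inv_natCast_mem_cRing {ℓ : ℕ} (hℓ : ℓ.Prime) (hA : A.LiesOverPrime ℓ) {M : ℕ}
    (hM : ¬ ℓ ∣ M) : (M : ℂ)⁻¹ ∈ cRing A := by
  have hM0 : M ≠ 0 := fun h => hM (h ▸ dvd_zero ℓ)
  have hcop : Nat.Coprime M ℓ := (hℓ.coprime_iff_not_dvd.mpr hM).symm
  have h1 : (1 : AlgebraicClosure ℚ) = (M : AlgebraicClosure ℚ) * (Nat.gcdA M ℓ : ℤ) +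
      (ℓ : AlgebraicClosure ℚ) * (Nat.gcdB M ℓ : ℤ) := by
    have h := Nat.gcd_eq_gcd_ab M ℓ
    rw [hcop.gcd_eq_one] at h
    exact_mod_cast h
  have hu : (M : AlgebraicClosure ℚ)⁻¹ ∈ A := by
    rcases A.mem_or_inv_mem (M : AlgebraicClosure ℚ)⁻¹ with h | h
    · exact h
    rw [inv_inv] at h
    by_contra hn
    have hMn : (M : AlgebraicClosure ℚ) ∈ A.nonunits := by
      rw [ValuationSubring.mem_nonunits_iff]
      refine lt_of_le_of_ne ((A.valuation_le_one_iff _).mpr h) fun heq => hn ?_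
      rw [← A.valuation_le_one_iff, map_inv₀, heq, inv_one]
    have h2 : (1 : AlgebraicClosure ℚ) ∈ A.nonunits := by
      rw [h1, ValuationSubring.mem_nonunits_iff]
      refine lt_of_le_of_lt (A.valuation.map_add _ _) (max_lt ?_ ?_) <;> rw [map_mul]
      · exact mul_lt_one_of_lt_of_le hMn ((A.valuation_le_one_iff _).mpr (intCast_mem A _))
      · exact mul_lt_one_of_lt_of_le hA ((A.valuation_le_one_iff _).mpr (intCast_mem A _))
    rw [ValuationSubring.mem_nonunits_iff, map_one] at h2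
    exact lt_irrefl _ h2
  exact ⟨⟨_, hu⟩, by simp [aToC]⟩

end FermatAgent.Igusa.Down

end
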