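import Fermat.Agent.Igusa.Fibre.Model
import Fermat.Agent.Igusa.Down.Concrete
import Fermat.Agent.Curve.Basics.Defs
import Mathlib.RingTheory.Polynomial.ScaleRoots

/-!
# Bounded poles and integral equations
-/

set_option autoImplicit false

noncomputable section

open AlgebraicCurve Polynomial

namespace FermatAgent.Igusa.Down

variable {K F : Type*} [Field K] [Field F] [Algebra K F]

theorem mem_of_root_monic (V : ValuationSubring F) {q : F[X]} (hq : q.Monic)
    (hc : ∀ i, q.coeff i ∈ V) {x : F} (hx : q.eval x = 0) : x ∈ V := by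
  obtain ⟨q', hq', -, hq'm⟩ := lifts_and_degree_eq_and_monic
    ((lifts_iff_coeff_lifts (f := V.subtype) q).mpr fun i => ⟨⟨_, hc i⟩, rfl⟩) hq
  exact mem_of_eval_monic V hq'm (by rw [← eval_map, hq', hx])

/-- An equation with bounded degrees bounds the poles. -/
theorem boundedPoles_of_relation (t f : F) (n : ℕ) (p : K[X][X]) (hp : p.Monic)
    (hdeg : ∀ i ≤ p.natDegree, (p.coeff i).natDegree ≤ n * (p.natDegree - i))
    (h0 : p.eval₂ (aeval t : K[X] →ₐ[K] F).toRingHom f = 0) : BoundedPoles K t n f := by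
  intro P
  set V := P.toValuationSubring
  set φ : K[X] →+* F := (aeval t : K[X] →ₐ[K] F).toRingHom
  refine ⟨fun ht => ?_, fun ht => ?_⟩
  · refine mem_of_root_monic V (hp.map φ) (fun i => ?_) (by rwa [eval_map])
    rw [coeff_map]
    show aeval t (p.coeff i) ∈ V
    rw [aeval_eq_sum_range]
    refine sum_mem fun j _ => ?_
    rw [Algebra.smul_def]
    exact mul_mem (P.algebraMap_mem' _) (pow_mem ht _)
  · have hu : t⁻¹ ∈ V := (V.mem_or_inv_mem t).resolve_left ht
    have ht0 : t ≠ 0 := fun h => ht (h ▸ zero_mem V)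
    set q := p.map φ with hqdef
    have hqd : q.natDegree = p.natDegree := hp.natDegree_map φ
    refine mem_of_root_monic V ((monic_scaleRoots_iff (p := q) ((t⁻¹) ^ n)).mpr (hp.map φ))
      (fun i => ?_) ?_
    · rw [coeff_scaleRoots, hqd, hqdef, coeff_map]
      show aeval t (p.coeff i) * _ ∈ V
      by_cases hi : i ≤ p.natDegree
      swap
      · rw [coeff_eq_zero_of_natDegree_lt (lt_of_not_ge hi), map_zero, zero_mul]
        exact zero_mem V
      rw [← pow_mul, aeval_eq_sum_range' (Nat.lt_succ_of_le (hdeg i hi)), Finset.sum_mul]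
      refine sum_mem fun j hj => ?_
      rw [Algebra.smul_def, mul_assoc]
      refine mul_mem (P.algebraMap_mem' _) ?_
      obtain ⟨r, hr⟩ := Nat.exists_eq_add_of_le (Finset.mem_range_succ_iff.mp hj)
      rw [hr, pow_add, ← mul_assoc, ← mul_pow, mul_inv_cancel₀ ht0, one_pow, one_mul]
      exact pow_mem hu r
    · rw [div_eq_mul_inv, mul_comm, ← inv_pow]
      have h := scaleRoots_eval₂_mul (RingHom.id F) (p := q) f ((t⁻¹) ^ n)
      simp only [RingHom.id_apply] at h
      show eval₂ (RingHom.id F) _ _ = 0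
      rw [h, show eval₂ (RingHom.id F) f q = q.eval f from rfl, hqdef, eval_map, h0, mul_zero]

theorem exists_monic_of_isIntegral_adjoin {x f : F}
    (h : IsIntegral (Algebra.adjoin K ({x} : Set F)) f) :
    ∃ p : K[X][X], p.Monic ∧ p.eval₂ (aeval x : K[X] →ₐ[K] F).toRingHom f = 0 := by
  obtain ⟨p, hp, h0⟩ := h
  set ψ : K[X] →+* Algebra.adjoin K ({x} : Set F) :=
    (aeval (⟨x, Algebra.self_mem_adjoin_singleton K x⟩ : Algebra.adjoin K ({x} : Set F))).toRingHom
  have hψ : Function.Surjective ψ := by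
    rintro ⟨y, hy⟩
    obtain ⟨r, hr⟩ : ∃ r : K[X], aeval x r = y := by
      rwa [Algebra.adjoin_singleton_eq_range_aeval] at hy
    exact ⟨r, Subtype.ext ((Polynomial.aeval_subalgebra_coe r _ _).trans hr)⟩
  obtain ⟨p', hp', -, hp'm⟩ := lifts_and_degree_eq_and_monic
    ((mem_lifts p).mpr (map_surjective ψ hψ p)) hp
  refine ⟨p', hp'm, ?_⟩
  rw [← hp', eval₂_map] at h0
  have he : (algebraMap (Algebra.adjoin K ({x} : Set F)) F).comp ψ =
      (aeval x : K[X] →ₐ[K] F).toRingHom :=
    RingHom.ext fun r => (Polynomial.aeval_subalgebra_coe r (Algebra.adjoin K {x})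
      ⟨x, Algebra.self_mem_adjoin_singleton K x⟩)
  rwa [he] at h0

variable [IsAlgClosed K] [Curve.IsFunctionField1 K F]

/-- Bounded poles give integral equations over `K[t]` and over `K[1/t]`. -/
theorem exists_monic_of_boundedPoles {t f : F} {n : ℕ} (h : BoundedPoles K t n f) :
    (∃ p : K[X][X], p.Monic ∧ p.eval₂ (aeval t : K[X] →ₐ[K] F).toRingHom f = 0) ∧
    ∃ p : K[X][X], p.Monic ∧
      p.eval₂ (aeval t⁻¹ : K[X] →ₐ[K] F).toRingHom (f / t ^ n) = 0 := by
  refine ⟨exists_monic_of_isIntegral_adjoin ((Curve.isIntegral_adjoin_iff _ _).mpr fun v hv =>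
      (h v).1 (hv t rfl)),
    exists_monic_of_isIntegral_adjoin ((Curve.isIntegral_adjoin_iff _ _).mpr fun v hv => ?_)⟩
  by_cases ht : t ∈ v.toValuationSubring
  · rw [div_eq_mul_inv, ← inv_pow]
    exact mul_mem ((h v).1 ht) (pow_mem (hv _ rfl) n)
  · exact (h v).2 ht

end FermatAgent.Igusa.Down

end
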