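import Fermat.Agent.Igusa.Gauss
import Fermat.Agent.Igusa.Down.Poles
import Fermat.Agent.Igusa.Down.FibreLift
import Fermat.Prelude.Def_ModularCurve_ReductionModL

/-!
# The model of `X₀(N)` over a place of `ℚbar` above `ℓ ∤ N`
-/

set_option autoImplicit false
set_option linter.unusedSectionVars false
set_option linter.style.haveILetI false

noncomputable section

open Polynomial Function AlgebraicCurve
open CongruenceSubgroup

namespace FermatAgent.Igusa.Down

open FermatAgent.Igusa FermatAgent.ModFun ModularCurve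

section Field

variable (K : Type*) [Field K] (N : ℕ) [NeZero N]

theorem aeval_eq_eval₂RingHom_C (x : LaurentSeries K) :
    (aeval x : K[X] →ₐ[K] LaurentSeries K).toRingHom = eval₂RingHom HahnSeries.C x :=
  Polynomial.ringHom_ext
    (fun c => by simp [algebraMap_laurentSeries_eq_single, HahnSeries.C_apply]) (by simp)

theorem coe_algebraMap_series {E : IntermediateField K (LaurentSeries K)} (a : K) :
    ((algebraMap K E a : E) : LaurentSeries K) = HahnSeries.C a := by
  rw [HahnSeries.C_apply, ← algebraMap_laurentSeries_eq_single]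
  rfl

theorem coe_smul_series {E : IntermediateField K (LaurentSeries K)} (c : K) (f : E) :
    ((c • f : E) : LaurentSeries K) = HahnSeries.C c * (f : LaurentSeries K) := by
  rw [← coe_algebraMap_series K (E := E), ← MulMemClass.coe_mul, ← Algebra.smul_def]

theorem C_inv_mul_C_mul {c : K} (hc : c ≠ 0) (o : LaurentSeries K) :
    HahnSeries.C c⁻¹ * (HahnSeries.C c * o) = o := by
  rw [← mul_assoc, ← map_mul, inv_mul_cancel₀ hc, map_one, one_mul]

theorem gev_mem (P : K[X][X]) : gev K N P ∈ modularFunctionFieldC K N := by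
  induction P using Polynomial.induction_on' with
  | add p q hp hq => rw [map_add]; exact add_mem hp hq
  | monomial n a =>
    rw [← C_mul_X_pow_eq_monomial, map_mul, map_pow, gev_X, gev_C, gevC_eq_aeval]
    refine mul_mem ?_ (pow_mem (jqNModC_mem K N) n)
    exact IntermediateField.adjoin_simple_le_iff.mpr (jqModC_mem K N)
      (IntermediateField.algebra_adjoin_le_adjoin K _ (aeval_mem_adjoin_singleton K _))

theorem exists_gev_quotient {x : LaurentSeries K} (hx : x ∈ modularFunctionFieldC K N) :
    ∃ P Q : K[X][X], gev K N Q ≠ 0 ∧ x * gev K N Q = gev K N P := by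
  obtain ⟨a, ha, b, hb, rfl⟩ := IntermediateField.mem_adjoin_iff_div.mp hx
  have hrange : ∀ y ∈ Algebra.adjoin K ({jqModC K, jqNModC K N} : Set (LaurentSeries K)),
      ∃ P : K[X][X], gev K N P = y := by
    intro y hy
    induction hy using Algebra.adjoin_induction with
    | mem y hy =>
      rcases hy with rfl | rfl
      · exact ⟨C X, by rw [gev_C, gevC_X]⟩
      · exact ⟨X, gev_X K N⟩
    | algebraMap c => exact ⟨C (C c), by
        rw [gev_C, gevC_C, algebraMap_laurentSeries_eq_single, HahnSeries.C_apply]⟩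
    | add y z _ _ hy hz =>
      obtain ⟨P, rfl⟩ := hy; obtain ⟨P', rfl⟩ := hz; exact ⟨P + P', map_add _ _ _⟩
    | mul y z _ _ hy hz =>
      obtain ⟨P, rfl⟩ := hy; obtain ⟨P', rfl⟩ := hz; exact ⟨P * P', map_mul _ _ _⟩
  obtain ⟨P, rfl⟩ := hrange a ha
  obtain ⟨Q, rfl⟩ := hrange b hb
  rcases eq_or_ne (gev K N Q) 0 with h0 | h0
  · exact ⟨0, 1, by simp, by rw [h0, div_zero, zero_mul, map_zero]⟩
  · exact ⟨P, Q, h0, div_mul_cancel₀ _ h0⟩

variable {K N} in
theorem coe_biEval_eq_gev {E : IntermediateField K (LaurentSeries K)} (x y : E)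
    (hx : (x : LaurentSeries K) = jqModC K) (hy : (y : LaurentSeries K) = jqNModC K N)
    (P : K[X][X]) : ((biEval x y P : E) : LaurentSeries K) = gev K N P := by
  have h : E.val.toRingHom.comp (biEval x y) = gev K N := by
    refine Polynomial.ringHom_ext (fun a => ?_) ?_
    · show E.val (biEval x y (C a)) = _
      rw [gev_C, gevC_eq_aeval, biEval, coe_eval₂RingHom, eval₂_C, AlgHom.toRingHom_eq_coe,
        RingHom.coe_coe, ← aeval_algHom_apply, IntermediateField.coe_val, hx]
    · show E.val (biEval x y X) = _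
      simp [biEval, gev_X, hy]
  exact RingHom.congr_fun h P

variable {K} in
theorem coe_eval₂_aeval {E : IntermediateField K (LaurentSeries K)} (x f : E) (p : K[X][X]) :
    ((p.eval₂ (aeval x : K[X] →ₐ[K] E).toRingHom f : E) : LaurentSeries K) =
      p.eval₂ (eval₂RingHom HahnSeries.C (x : LaurentSeries K)) (f : LaurentSeries K) := by
  show E.val.toRingHom _ = _
  rw [hom_eval₂, ← aeval_eq_eval₂RingHom_C]
  congr 1
  exact RingHom.ext fun q => (aeval_algHom_apply E.val x q).symm

theorem transcendental_jqModC_coe {E : IntermediateField K (LaurentSeries K)} (x : E)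
    (hx : (x : LaurentSeries K) = jqModC K) : Transcendental K x := by
  rintro ⟨p, hp, h⟩
  apply gevC_ne_zero K hp
  rw [gevC_eq_aeval, ← hx]
  exact (aeval_algHom_apply E.val x p).trans (by rw [h, map_zero])

end Field

/-- The auxiliary level. -/
def auxLevel (N ℓ : ℕ) : ℕ := N * if ℓ = 3 then 4 else 3

theorem not_dvd_auxLevel {N ℓ : ℕ} (hp : ℓ.Prime) (hℓN : ¬ ℓ ∣ N) : ¬ ℓ ∣ auxLevel N ℓ := by
  rw [auxLevel, hp.dvd_mul, not_or]
  refine ⟨hℓN, ?_⟩
  split_ifs with h
  · subst h; decide
  · exact fun h' => h ((Nat.prime_dvd_prime_iff_eq hp Nat.prime_three).mp h')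

theorem three_le_auxLevel (N ℓ : ℕ) [NeZero N] : 3 ≤ auxLevel N ℓ := by
  have := NeZero.pos N
  rw [auxLevel]; split_ifs <;> omega

theorem two_or_three_dvd_auxLevel (N ℓ : ℕ) : 2 ∣ auxLevel N ℓ ∨ 3 ∣ auxLevel N ℓ := by
  rw [auxLevel]; split_ifs
  · exact Or.inl (dvd_mul_of_dvd_right (by norm_num) _)
  · exact Or.inr (dvd_mul_left 3 N)

instance (N ℓ : ℕ) [NeZero N] : NeZero (auxLevel N ℓ) :=
  ⟨by have := three_le_auxLevel N ℓ; omega⟩

section Reduction

variable (A : ValuationSubring (AlgebraicClosure ℚ)) (N : ℕ) [NeZero N]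

variable {ℓ : ℕ} [Fact ℓ.Prime] [CharP (IsLocalRing.ResidueField A) ℓ] (hℓN : ¬ ℓ ∣ N)

local instance : Fact (Surjective (IsLocalRing.residue A)) := ⟨IsLocalRing.residue_surjective⟩

include hℓN in
/-- The reductions of the divisor expansions are generated by `j` and `j(q^N)`. -/
theorem fullC_eq : modularFunctionFieldFullC (IsLocalRing.ResidueField A) N = modularFunctionFieldC (IsLocalRing.ResidueField A) N := by
  refine le_antisymm ?_ (modularFunctionFieldC_le_full (IsLocalRing.ResidueField A) N)
  rw [modularFunctionFieldFullC, IntermediateField.adjoin_le_iff]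
  rintro _ ⟨d, hne, hd, rfl⟩
  haveI := hne
  have hy : coeffMap A.subtype (qExpand A d (jqModC A)) ∈
      modularFunctionFieldC (AlgebraicClosure ℚ) N := by
    rw [coeffMap_qExpand, coeffMap_jqModC, ← laurentBaseChange_full_eq,
      laurentBaseChange_full_eq_fullC]
    exact jqModCd_mem_full _ N hd
  obtain ⟨h, hr⟩ := coeffMap_mem_gaussRing A (IsLocalRing.residue A) N ℓ hℓN hy
  rw [SetLike.mem_coe, ← coeffMap_jqModC (IsLocalRing.residue A), ← coeffMap_qExpand, ← hr]
  obtain ⟨P, Q, hrep⟩ := id h
  rw [gaussRed_eq A (IsLocalRing.residue A) N ⟨_, h⟩ hrep, coeffMap_gev, coeffMap_gevC, ← gev_C (IsLocalRing.ResidueField A) N]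
  exact div_mem (gev_mem _ _ _) (gev_mem _ _ _)

include hℓN in
theorem gaussRed_mem_fullC (x : gaussRing A (IsLocalRing.residue A) N) :
    gaussRed A (IsLocalRing.residue A) N x ∈ modularFunctionFieldFullC (IsLocalRing.ResidueField A) N := by
  obtain ⟨P, Q, hrep⟩ := x.2
  rw [fullC_eq A N hℓN, gaussRed_eq A (IsLocalRing.residue A) N x hrep, coeffMap_gev, coeffMap_gevC, ← gev_C (IsLocalRing.ResidueField A) N]
  exact div_mem (gev_mem _ _ _) (gev_mem _ _ _)

/-- The Gauss ring inside the function field. -/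
def intBar : Subring (modularFunctionFieldBar N) :=
  (gaussRing A (IsLocalRing.residue A) N).comap (modularFunctionFieldBar N).val.toRingHom

theorem mem_intBar (x : modularFunctionFieldBar N) :
    x ∈ intBar A N ↔ (x : LaurentSeries (AlgebraicClosure ℚ)) ∈
      gaussRing A (IsLocalRing.residue A) N :=
  Iff.rfl

/-- Reduction to the special fibre. -/
def redBar : intBar A N →+* modularFunctionFieldFullC (IsLocalRing.ResidueField A) N :=
  ((gaussRed A (IsLocalRing.residue A) N).comp
    ((modularFunctionFieldBar N).val.toRingHom.restrict (intBar A N) (gaussRing A (IsLocalRing.residue A) N)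
      fun _ h => h)).codRestrict _ fun _ => gaussRed_mem_fullC A N hℓN _

theorem coe_redBar (x : intBar A N) :
    (redBar A N hℓN x : LaurentSeries (IsLocalRing.ResidueField A)) = gaussRed A (IsLocalRing.residue A) N ⟨((x : modularFunctionFieldBar N) : LaurentSeries (AlgebraicClosure ℚ)), x.2⟩ :=
  rfl

theorem gaussRed_jqModC :
    gaussRed A (IsLocalRing.residue A) N ⟨_, jqModC_mem_gaussRing A (IsLocalRing.residue A) N⟩ = jqModC (IsLocalRing.ResidueField A) := by
  have h := gaussRed_gev A (IsLocalRing.residue A) N (C X)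
  simp only [Polynomial.map_C, coe_mapRingHom, Polynomial.map_X, gev_C, gevC_X,
    coeffMap_jqModC] at h
  exact h

/-- `j` as an integer. -/
def tBar : intBar A N := ⟨jBar (AlgebraicClosure ℚ) N, jqModC_mem_gaussRing A (IsLocalRing.residue A) N⟩

theorem coe_redBar_tBar : (redBar A N hℓN (tBar A N) : LaurentSeries (IsLocalRing.ResidueField A)) = jqModC (IsLocalRing.ResidueField A) :=
  (coe_redBar A N hℓN _).trans (gaussRed_jqModC A N)

variable (hℓ : A.LiesOverPrime ℓ)

include hℓN hℓ in
theorem finrank_fibre :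
    Module.finrank (IntermediateField.adjoin (IsLocalRing.ResidueField A) {redBar A N hℓN (tBar A N)})
      (modularFunctionFieldFullC (IsLocalRing.ResidueField A) N) = (Gamma0 N).index := by
  obtain ⟨Φ, hm, hd, h0⟩ := exists_monic_bEval_red (L := auxLevel N ℓ) (N := N) (cRes A)
    (hasRoots_cRing A _) (dvd_mul_right N _)
  set x := redBar A N hℓN (tBar A N) with hxdef
  set y : modularFunctionFieldFullC (IsLocalRing.ResidueField A) N :=
    ⟨jqNModC (IsLocalRing.ResidueField A) N, modularFunctionFieldC_le_full (IsLocalRing.ResidueField A) N (jqNModC_mem (IsLocalRing.ResidueField A) N)⟩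
  have hev := coe_biEval_eq_gev (K := (IsLocalRing.ResidueField A)) (N := N) x y (coe_redBar_tBar A N hℓN) rfl
  refine finrank_of_noRelation (x := x) (y := y) Φ hm hd
    (Subtype.ext ((hev Φ).trans h0)) ?_ fun P hP h =>
      eq_zero_of_bEval_charP N ℓ hℓN (IsLocalRing.ResidueField A) hP (by rw [← gev_eq_bEval, ← hev, h]; rfl)
  refine IntermediateField.map_injective (IntermediateField.val _) ?_
  rw [IntermediateField.adjoin_map, Set.image_pair, ← AlgHom.fieldRange_eq_map,
    IntermediateField.fieldRange_val]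
  show IntermediateField.adjoin (IsLocalRing.ResidueField A) {(x : LaurentSeries (IsLocalRing.ResidueField A)), jqNModC (IsLocalRing.ResidueField A) N} = _
  rw [hxdef, coe_redBar_tBar, fullC_eq A N hℓN]
  rfl

include hℓN hℓ in
theorem isFunctionField1_fibre :
    Curve.IsFunctionField1 (IsLocalRing.ResidueField A) (modularFunctionFieldFullC (IsLocalRing.ResidueField A) N) :=
  haveI : FiniteDimensional (IntermediateField.adjoin (IsLocalRing.ResidueField A) {redBar A N hℓN (tBar A N)})
      (modularFunctionFieldFullC (IsLocalRing.ResidueField A) N) :=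
    Module.finite_of_finrank_pos (by rw [finrank_fibre A N hℓN hℓ]; exact index_pos N)
  Curve.IsFunctionField1.of_finiteDimensional
    (t := redBar A N hℓN (tBar A N)) (transcendental_jqModC_coe (IsLocalRing.ResidueField A) _ (coe_redBar_tBar A N hℓN))

include hℓN hℓ in
theorem exists_lift_bar : ∃ n₀ : ℕ, ∀ (n : ℕ) (fb : modularFunctionFieldFullC (IsLocalRing.ResidueField A) N), n₀ ≤ n →
    BoundedPoles (IsLocalRing.ResidueField A) (redBar A N hℓN (tBar A N)) n fb →
    ∃ f : intBar A N, BoundedPoles (AlgebraicClosure ℚ) (tBar A N : modularFunctionFieldBar N) n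
      (f : modularFunctionFieldBar N) ∧ redBar A N hℓN f = fb := by
  haveI := isAlgClosed_residueField A
  haveI := isFunctionField1_fibre A N hℓN hℓ
  have hp : ℓ.Prime := Fact.out
  obtain ⟨n₀, hn₀⟩ := exists_lift_series (L := auxLevel N ℓ) (N := N) (ρ := cRes A)
    (cRes_surjective A) (hasRoots_cRing A _)
    (inv_natCast_mem_cRing A hp hℓ (not_dvd_auxLevel hp hℓN)) (three_le_auxLevel N ℓ)
    (two_or_three_dvd_auxLevel N ℓ) (dvd_mul_right N _)
  refine ⟨n₀, fun n fb hn hb => ?_⟩
  obtain ⟨⟨p, hpm, hp0⟩, ⟨q, hqm, hq0⟩⟩ := exists_monic_of_boundedPoles hb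
  have hp' := congrArg Subtype.val hp0
  rw [coe_eval₂_aeval, coe_redBar_tBar] at hp'
  have hq' := congrArg Subtype.val hq0
  rw [coe_eval₂_aeval] at hq'
  push_cast [coe_redBar_tBar] at hq'
  obtain ⟨s, F, hsC, hsr, hFm, hF0, hFd⟩ := hn₀ n (fb : LaurentSeries (IsLocalRing.ResidueField A)) hn
    (exists_gev_quotient (IsLocalRing.ResidueField A) N (fullC_eq A N hℓN ▸ fb.2)) ⟨p, hpm, hp'⟩ ⟨q, hqm, hq'⟩
  set e : cRing A →+* A := ((cEquiv A).symm : cRing A →+* A)
  set y : LaurentSeries A := coeffMap e s with hy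
  have hqC : coeffMap (qbarToC : AlgebraicClosure ℚ →+* ℂ) (coeffMap A.subtype y) =
      coeffMap (cRing A).subtype s := by
    rw [hy, coeffMap_coeffMap, coeffMap_coeffMap]
    exact coeffMap_congr (RingHom.ext (qbarToC_cEquiv_symm A)) s
  have hymem : coeffMap A.subtype y ∈
      laurentBaseChange (AlgebraicClosure ℚ) (modularFunctionFieldFull N) := by
    rw [← coeffMap_mem_laurentBaseChange_iff _ qbarToC, hqC, laurentBaseChange_full_eq]
    exact hsC
  have hy' := hymem
  rw [laurentBaseChange_full_eq] at hy'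
  obtain ⟨hgauss, hgred⟩ := coeffMap_mem_gaussRing A (IsLocalRing.residue A) N ℓ hℓN hy'
  refine ⟨⟨⟨_, hymem⟩, hgauss⟩, ?_, Subtype.ext ?_⟩
  · set ι : cRing A →+* AlgebraicClosure ℚ := A.subtype.comp e
    refine boundedPoles_of_relation _ _ n (F.map (mapRingHom ι)) (hFm.map _) (fun i hi => ?_) ?_
    · rw [hFm.natDegree_map] at hi ⊢
      rw [coeff_map, coe_mapRingHom]
      exact natDegree_map_le.trans (hFd i hi)
    · apply Subtype.ext
      rw [coe_eval₂_aeval]
      show (F.map (mapRingHom ι)).eval₂ (gevC (AlgebraicClosure ℚ)) (coeffMap A.subtype y) = 0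
      rw [eval₂_map, hy, coeffMap_coeffMap,
        show (gevC (AlgebraicClosure ℚ)).comp (mapRingHom ι) = (coeffMap ι).comp (gevC (cRing A))
          from RingHom.ext fun Q => (coeffMap_gevC ι Q).symm,
        ← hom_eval₂, hF0, map_zero]
  · rw [coe_redBar]
    show gaussRed A (IsLocalRing.residue A) N ⟨coeffMap A.subtype y, _⟩ = _
    rw [hgred, hy, coeffMap_coeffMap]
    exact hsr

include hℓN in
theorem exists_normalize_bar (f : modularFunctionFieldBar N) (hf : f ≠ 0) :
    ∃ (c : AlgebraicClosure ℚ) (h : c • f ∈ intBar A N), redBar A N hℓN ⟨c • f, h⟩ ≠ 0 := by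
  have hf' : (f : LaurentSeries (AlgebraicClosure ℚ)) ∈
      modularFunctionFieldC (AlgebraicClosure ℚ) N := by
    rw [← laurentBaseChange_full_eq]; exact f.2
  obtain ⟨c, o, P, Q, hrep, hc, heq, -, hred⟩ :=
    exists_eq_C_mul A (IsLocalRing.residue A) N ℓ hℓN hf' fun h => hf (Subtype.ext h)
  have hsmul : ((c⁻¹ • f : modularFunctionFieldBar N) : LaurentSeries (AlgebraicClosure ℚ)) = o := by
    refine (coe_smul_series _ c⁻¹ f).trans ?_
    rw [heq]
    exact C_inv_mul_C_mul _ hc o
  have hmem : c⁻¹ • f ∈ intBar A N := by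
    rw [mem_intBar, hsmul]; exact ⟨P, Q, hrep⟩
  refine ⟨c⁻¹, hmem, fun h => hred ?_⟩
  have h' := (coe_redBar A N hℓN ⟨_, hmem⟩).symm.trans (congrArg Subtype.val h)
  exact (congrArg _ (Subtype.ext hsmul.symm)).trans h'

/-- **The model of `X₀(N)` at a place over `ℓ ∤ N`.** -/
def modelData : ModelData A (IsLocalRing.residue A) (modularFunctionFieldBar N) (modularFunctionFieldFullC (IsLocalRing.ResidueField A) N) where
  residue_surjective := IsLocalRing.residue_surjective
  integers := intBar A N
  red := redBar A N hℓN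
  algebraMap_mem a := by
    rw [mem_intBar]
    exact (coe_algebraMap_series (AlgebraicClosure ℚ) (E := modularFunctionFieldBar N)
      (a : AlgebraicClosure ℚ)).symm ▸ C_mem_gaussRing A (IsLocalRing.residue A) N a
  red_algebraMap a := Subtype.ext <|
    ((coe_redBar A N hℓN _).trans (congrArg _ (Subtype.ext
      (coe_algebraMap_series (AlgebraicClosure ℚ) (E := modularFunctionFieldBar N)
        (a : AlgebraicClosure ℚ))))).trans
      ((gaussRed_C A (IsLocalRing.residue A) N a).trans (coe_algebraMap_series _ _).symm)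
  exists_normalize := exists_normalize_bar A N hℓN
  t := tBar A N
  transcendental := transcendental_jqModC_coe (IsLocalRing.ResidueField A) _ (coe_redBar_tBar A N hℓN)
  finrank_eq := (finrank_fibre A N hℓN hℓ).trans (finrank_adjoin_jBar _ N).symm
  exists_lift := exists_lift_bar A N hℓN hℓ

end Reduction

end FermatAgent.Igusa.Down

end
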