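import Fermat.Agent.Igusa.Transitive

/-!
# Pole bounds for Laurent series
-/

set_option autoImplicit false

noncomputable section

open Polynomial

namespace FermatAgent.Igusa.Down

open ModularCurve

variable {A : Type*} [CommRing A]

/-- No coefficient below degree `-e`. -/
def Bdd (e : ℤ) (s : LaurentSeries A) : Prop := ∀ m : ℤ, m < -e → s.coeff m = 0

theorem Bdd.mono {e f : ℤ} {s : LaurentSeries A} (h : Bdd e s) (hef : e ≤ f) : Bdd f s :=
  fun m hm => h m (by omega)

theorem bdd_zero (e : ℤ) : Bdd e (0 : LaurentSeries A) := fun _ _ => rfl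

theorem Bdd.sub {e : ℤ} {s t : LaurentSeries A} (hs : Bdd e s) (ht : Bdd e t) : Bdd e (s - t) :=
  fun m hm => by rw [HahnSeries.coeff_sub, hs m hm, ht m hm, sub_zero]

theorem Bdd.sum {ι : Type*} (S : Finset ι) {e : ℤ} {f : ι → LaurentSeries A}
    (h : ∀ i ∈ S, Bdd e (f i)) : Bdd e (∑ i ∈ S, f i) := fun m hm => by
  rw [HahnSeries.coeff_sum]
  exact Finset.sum_eq_zero fun i hi => h i hi m hm

theorem Bdd.mul {e f : ℤ} {s t : LaurentSeries A} (hs : Bdd e s) (ht : Bdd f t) :
    Bdd (e + f) (s * t) := fun m hm => by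
  rw [HahnSeries.coeff_mul]
  refine Finset.sum_eq_zero fun p hp => ?_
  rw [Finset.mem_antidiagonal] at hp
  rcases lt_or_ge p.1 (-e) with h | h
  · rw [hs _ h, zero_mul]
  · rw [ht p.2 (by omega), mul_zero]

theorem bdd_C (a : A) : Bdd 0 (HahnSeries.C a : LaurentSeries A) := fun m hm => by
  rw [HahnSeries.C_apply, HahnSeries.coeff_single_of_ne (by omega)]

theorem bdd_one : Bdd 0 (1 : LaurentSeries A) := by
  simpa using bdd_C (1 : A)

theorem Bdd.pow {e : ℤ} {s : LaurentSeries A} (hs : Bdd e s) (n : ℕ) : Bdd (n * e) (s ^ n) := by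
  induction n with
  | zero => simpa using bdd_one
  | succ n ih => rw [pow_succ]; exact (ih.mul hs).mono (le_of_eq (by push_cast; ring))

theorem bdd_iff_le_order {e : ℤ} {s : LaurentSeries A} (hs : s ≠ 0) :
    Bdd e s ↔ -e ≤ s.order := by
  refine ⟨fun h => ?_, fun h m hm => HahnSeries.coeff_eq_zero_of_lt_order (by omega)⟩
  by_contra hlt
  exact HahnSeries.coeff_order_eq_zero.not.mpr hs (h _ (by omega))

/-- A root of a monic polynomial with coefficients regular at `q = 0` is regular there. -/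
theorem bdd_zero_of_monic [IsDomain A] {p : (LaurentSeries A)[X]} (hp : p.Monic)
    (hc : ∀ i, Bdd 0 (p.coeff i)) {w : LaurentSeries A} (hw : p.eval w = 0) : Bdd 0 w := by
  by_contra h
  have hw0 : w ≠ 0 := fun h0 => h (h0 ▸ bdd_zero 0)
  rw [bdd_iff_le_order hw0] at h
  set a := w.order
  set d := p.natDegree
  have hwb : Bdd (-a) w := (bdd_iff_le_order hw0).mpr (by rw [neg_neg])
  rw [eval_eq_sum_range, Finset.sum_range_succ, hp.coeff_natDegree, one_mul] at hw
  have h1 : (w ^ d).coeff ((d : ℤ) * a) ≠ 0 := by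
    have := HahnSeries.coeff_order_eq_zero.not.mpr (pow_ne_zero d hw0)
    rwa [HahnSeries.order_pow, nsmul_eq_mul] at this
  have h2 : (∑ i ∈ Finset.range d, p.coeff i * w ^ i).coeff ((d : ℤ) * a) = 0 := by
    rw [HahnSeries.coeff_sum]
    refine Finset.sum_eq_zero fun i hi => ((hc i).mul (hwb.pow i)) _ ?_
    have hid : (i : ℤ) < d := by exact_mod_cast Finset.mem_range.mp hi
    nlinarith
  have := congrArg (fun s : LaurentSeries A => s.coeff ((d : ℤ) * a)) hw
  rw [HahnSeries.coeff_add, h2, zero_add, HahnSeries.coeff_zero] at this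
  exact h1 this

/-- Coefficients of `∏ (Y - s c)`. -/
theorem bdd_coeff_prod {ι : Type*} (S : Finset ι) (s : ι → LaurentSeries A) {e : ℤ}
    (h : ∀ c ∈ S, Bdd e (s c)) (i : ℕ) :
    Bdd (((S.card : ℤ) - i) * e) ((∏ c ∈ S, (X - C (s c))).coeff i) := by
  classical
  induction S using Finset.induction_on generalizing i with
  | empty =>
    rw [Finset.prod_empty, coeff_one]
    split_ifs with hi
    · subst hi; simpa using bdd_one
    · exact bdd_zero _
  | @insert c S hc ih =>
    have hS := ih (fun x hx => h x (Finset.mem_insert_of_mem hx))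
    have hsc := h c (Finset.mem_insert_self c S)
    rw [Finset.prod_insert hc, Finset.card_insert_of_notMem hc, sub_mul (X : (LaurentSeries A)[X]), coeff_sub, coeff_C_mul]
    refine Bdd.sub ?_ ((hsc.mul (hS i)).mono (le_of_eq (by push_cast; ring)))
    rcases i with _ | i
    · rw [coeff_X_mul_zero]; exact bdd_zero _
    · rw [coeff_X_mul]; exact (hS i).mono (le_of_eq (by push_cast; ring))

theorem bdd_jqModC : Bdd 1 (jqModC A) := fun m hm => coeff_jqModC_of_lt A (by omega)

theorem Bdd.qExpand (L : ℕ) [NeZero L] {e : ℤ} {s : LaurentSeries A} (hs : Bdd e s) :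
    Bdd (L * e) (ModularCurve.qExpand A L s) := fun m hm => by
  by_cases hd : (L : ℤ) ∣ m
  · obtain ⟨c, rfl⟩ := hd
    rw [qExpand_coeff_mul]
    exact hs c (lt_of_mul_lt_mul_left (by linarith) (Int.natCast_nonneg L))
  · exact qExpand_coeff_of_not_dvd _ _ hd

theorem bdd_inv_jqModC (k : Type*) [Field k] : Bdd (0 : ℤ) (jqModC k)⁻¹ := by
  have hj := jqModC_ne_zero_of_nontrivial k
  rw [bdd_iff_le_order (inv_ne_zero hj)]
  have h : (jqModC k).order = -1 := order_eq_of_coeff (by rw [coeff_jqModC_neg_one]; exact one_ne_zero)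
    fun i hi => coeff_jqModC_of_lt k hi
  have h2 := HahnSeries.order_mul hj (inv_ne_zero hj)
  rw [mul_inv_cancel₀ hj, HahnSeries.order_one, h] at h2
  omega

end FermatAgent.Igusa.Down
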