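import Mathlib.RingTheory.DedekindDomain.IntegralClosure
import Mathlib.FieldTheory.Fixed
import Mathlib.RingTheory.Localization.FractionRing
import Mathlib.RingTheory.Polynomial.Basic

/-!
# Integrally closed rings with a finite group whose invariants are rationally `k[X]`
-/

set_option autoImplicit false
set_option linter.style.haveILetI false

noncomputable section

open Polynomial

namespace FermatAgent.Igusa.Down

/-- An integrally closed domain, integral over `k[X]`, with a faithful action of a finite group
fixing `k[X]` whose invariants become elements of `k[X]` after multiplication by one fixed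
nonzero element, is a Dedekind domain. -/
theorem isDedekindDomain_of_invariants {k B G : Type*} [Field k] [CommRing B] [IsDomain B]
    [IsIntegrallyClosed B] [Group G] [Fintype G] [MulSemiringAction G B] [FaithfulSMul G B]
    (ψ : k[X] →+* B) (hψ : Function.Injective ψ) (hint : ∀ x : B, ψ.IsIntegralElem x)
    (hψfix : ∀ (g : G) (P : k[X]), g • ψ P = ψ P) {τ : B} (hτ0 : τ ≠ 0)
    (hτ : ∀ b : B, (∀ g : G, g • b = b) → ∃ P : k[X], ψ P = b * τ) :
    IsDedekindDomain B := by
  classical
  let K := FractionRing B
  letI : MulSemiringAction G K := IsFractionRing.mulSemiringAction G B K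
  haveI : SMulDistribClass G B K := IsFractionRing.smulDistribClass G B K
  haveI : FaithfulSMul G K := IsFractionRing.faithfulSMul G B K
  have hsm : ∀ (g : G) (b : B), g • algebraMap B K b = algebraMap B K (g • b) := fun g b =>
    (algebraMap.coe_smul' (C := K) g b).symm
  let K₀ := FixedPoints.subfield G K
  letI : Algebra k[X] B := ψ.toAlgebra
  have hfixed : ∀ P : k[X], algebraMap B K (ψ P) ∈ K₀ := fun P g => by rw [hsm, hψfix]
  let φ : k[X] →+* K₀ := ((algebraMap B K).comp ψ).codRestrict K₀ hfixed
  letI : Algebra k[X] K₀ := φ.toAlgebra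
  haveI : IsScalarTower k[X] K₀ K :=
    IsScalarTower.of_algebraMap_eq fun P => IsScalarTower.algebraMap_apply k[X] B K P
  have hinjK : Function.Injective (algebraMap B K) := IsFractionRing.injective B K
  haveI : FaithfulSMul k[X] K₀ := by
    refine (faithfulSMul_iff_algebraMap_injective _ _).mpr fun P Q h => hψ (hinjK ?_)
    exact congrArg Subtype.val h
  haveI : IsFractionRing k[X] K₀ := by
    refine IsFractionRing.of_field _ _ fun z => ?_
    obtain ⟨a, b, hb, hab⟩ := IsFractionRing.div_surjective B (z : K)
    have hb0 : b ≠ 0 := nonZeroDivisors.ne_zero hb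
    have hbB : ∀ g : G, g • b ≠ 0 := fun g h => hb0 (by rw [← inv_smul_smul g b, h, smul_zero])
    -- make the denominator invariant
    set b' := ∏ g : G, g • b with hb'
    have hb'fix : ∀ g : G, g • b' = b' := fun g => by
      rw [hb', Finset.smul_prod']
      exact Fintype.prod_equiv (Equiv.mulLeft g) _ _ fun h => (mul_smul g h b).symm
    set a' := a * ∏ g ∈ (Finset.univ : Finset G).erase 1, g • b with ha'
    have hab' : (z : K) * algebraMap B K b' = algebraMap B K a' := by
      rw [hb', ← Finset.mul_prod_erase _ _ (Finset.mem_univ (1 : G)), one_smul, map_mul, ← hab,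
        ← mul_assoc, div_mul_cancel₀ _ ((map_ne_zero_iff _ hinjK).mpr hb0), ha', map_mul]
    have ha'fix : ∀ g : G, g • a' = a' := fun g => hinjK (by
      rw [← hsm, ← hab', smul_mul', hsm, hb'fix, z.2 g])
    obtain ⟨P, hP⟩ := hτ a' ha'fix
    obtain ⟨Q, hQ⟩ := hτ b' hb'fix
    have hQ0 : Q ≠ 0 := fun h => by
      rw [h, map_zero] at hQ
      exact mul_ne_zero (Finset.prod_ne_zero_iff.mpr fun g _ => hbB g) hτ0 hQ.symm
    refine ⟨P, Q, (eq_div_iff ?_).mpr (Subtype.ext ?_)⟩
    · rwa [ne_eq, map_eq_zero_iff _ (FaithfulSMul.algebraMap_injective k[X] K₀)]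
    · show (z : K) * algebraMap B K (ψ Q) = algebraMap B K (ψ P)
      rw [hP, hQ, map_mul, map_mul, ← mul_assoc, hab']
  haveI : Algebra.IsIntegral k[X] B := ⟨fun x => hint x⟩
  exact IsIntegralClosure.isDedekindDomain k[X] K₀ K B

end FermatAgent.Igusa.Down
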