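import Mathlib.RingTheory.Ideal.Norm.AbsNorm
import Mathlib.RingTheory.Filtration
import Mathlib.LinearAlgebra.Vandermonde
import Mathlib.LinearAlgebra.LinearIndependent.Basic

/-!
# Fixed rings of finite groups acting on Dedekind domains

`D` a Dedekind domain over a field `k` all of whose points are rational, `G` a finite group acting
faithfully by `k`-automorphisms, `T` a `k`-algebra of fixed elements containing all norms and
traces. Then `T` is the whole fixed ring, whatever the characteristic: the order of a fixed element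
at a point is divisible by the order of the stabiliser, and norms of uniformisers realise it.
-/

set_option autoImplicit false
set_option linter.style.haveILetI false
set_option linter.unusedSectionVars false

noncomputable section

open scoped BigOperators

namespace FermatAgent.Igusa.Down

variable {k D G : Type*} [Field k] [CommRing D] [IsDedekindDomain D] [Algebra k D]
  [Group G] [MulSemiringAction G D]

/-- `x` has order exactly `n` at `P`. -/
def ExactOrd (P : Ideal D) (x : D) (n : ℕ) : Prop := x ∈ P ^ n ∧ x ∉ P ^ (n + 1)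

theorem exactOrd_iff {P : Ideal D} {x : D} {n : ℕ} :
    ExactOrd P x n ↔ emultiplicity P (Ideal.span {x}) = n := by
  rw [emultiplicity_eq_coe, Ideal.dvd_span_singleton, Ideal.dvd_span_singleton]; rfl

theorem exactOrd_one {P : Ideal D} (hP : P ≠ ⊤) : ExactOrd P (1 : D) 0 :=
  ⟨by simp, by simpa using (Ideal.ne_top_iff_one P).mp hP⟩

theorem exactOrd_zero_iff {P : Ideal D} {x : D} : ExactOrd P x 0 ↔ x ∉ P := by
  simp [ExactOrd]

section Prime

variable {P : Ideal D} (hP : Prime P)

include hP

theorem ExactOrd.mul {x y : D} {n m : ℕ} (hx : ExactOrd P x n) (hy : ExactOrd P y m) :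
    ExactOrd P (x * y) (n + m) := by
  rw [exactOrd_iff] at hx hy ⊢
  rw [← Ideal.span_singleton_mul_span_singleton, emultiplicity_mul hP, hx, hy, Nat.cast_add]

theorem ne_top_of_prime' : P ≠ ⊤ := (Ideal.isPrime_of_prime hP).ne_top

theorem ExactOrd.pow {x : D} {n : ℕ} (hx : ExactOrd P x n) (i : ℕ) :
    ExactOrd P (x ^ i) (i * n) := by
  induction i with
  | zero => simpa using exactOrd_one (ne_top_of_prime' hP)
  | succ i ih => rw [pow_succ, add_one_mul]; exact ih.mul hP hx

theorem ExactOrd.prod {ι : Type*} (s : Finset ι) {f : ι → D} {n : ι → ℕ}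
    (h : ∀ i ∈ s, ExactOrd P (f i) (n i)) : ExactOrd P (∏ i ∈ s, f i) (∑ i ∈ s, n i) := by
  classical
  induction s using Finset.induction_on with
  | empty => simpa using exactOrd_one (ne_top_of_prime' hP)
  | @insert a s ha ih =>
    rw [Finset.prod_insert ha, Finset.sum_insert ha]
    exact (h a (Finset.mem_insert_self a s)).mul hP
      (ih fun i hi => h i (Finset.mem_insert_of_mem hi))

end Prime

/-- The ideal of elements carried into `P` by `g`. -/
def pre (g : G) (P : Ideal D) : Ideal D :=
  P.comap (MulSemiringAction.toRingEquiv G D g)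

theorem mem_pre {g : G} {P : Ideal D} {x : D} : x ∈ pre g P ↔ g • x ∈ P := Iff.rfl

theorem pre_pow (g : G) (P : Ideal D) (n : ℕ) : pre g P ^ n = pre g (P ^ n) := by
  rw [pre, pre, ← Ideal.map_symm, ← Ideal.map_symm, Ideal.map_pow]

theorem exactOrd_smul {g : G} {P : Ideal D} {x : D} {n : ℕ} :
    ExactOrd P (g • x) n ↔ ExactOrd (pre g P) x n := by
  rw [ExactOrd, ExactOrd, pre_pow, pre_pow, mem_pre, mem_pre]

instance pre_isMaximal (g : G) (P : Ideal D) [P.IsMaximal] : (pre g P).IsMaximal :=
  Ideal.comap_isMaximal_of_surjective _ (MulSemiringAction.toRingEquiv G D g).surjective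

theorem pre_one (P : Ideal D) : pre (1 : G) P = P := by ext x; simp [mem_pre]

theorem pre_pre (g h : G) (P : Ideal D) : pre h (pre g P) = pre (g * h) P := by
  ext x; simp [mem_pre, mul_smul]

theorem smul_mem_pow_of_pre_eq {g : G} {P : Ideal D} (hg : pre g P = P) {n : ℕ} {x : D}
    (hx : x ∈ P ^ n) : g • x ∈ P ^ n := by
  rw [← mem_pre, ← pre_pow, hg]; exact hx

variable (k) in
/-- All points are rational. -/
def RationalPoints (D : Type*) [CommRing D] [Algebra k D] : Prop :=
  ∀ P : Ideal D, P.IsMaximal → ∀ x : D, ∃ c : k, x - algebraMap k D c ∈ P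

theorem exists_exactOrd_ne_zero {P : Ideal D} (_hP : P ≠ ⊥) (hP' : P.IsMaximal) {x : D} (hx : x ≠ 0) :
    ∃ n, ExactOrd P x n := by
  by_contra hne
  push Not at hne
  have : ∀ n, x ∈ P ^ n := by
    intro n
    induction n with
    | zero => simp
    | succ n ih => by_contra h; exact hne n ⟨ih, h⟩
  have h0 : x ∈ ⨅ n, P ^ n := by simpa [Ideal.mem_iInf] using this
  rw [Ideal.iInf_pow_eq_bot_of_isDomain P hP'.ne_top, Ideal.mem_bot] at h0
  exact hx h0

/-- One step of the expansion at a point. -/
theorem exists_sub_const_mul_mem (hres : RationalPoints k D) {P : Ideal D} [P.IsMaximal]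
    (hP : P ≠ ⊥) {n : ℕ} {w y : D} (hw : ExactOrd P w n) (hy : y ∈ P ^ n) :
    ∃ c : k, y - algebraMap k D c * w ∈ P ^ (n + 1) := by
  obtain ⟨a, e, he, hae⟩ := Ideal.exists_mul_add_mem_pow_succ hP w y hw.1 hw.2 hy
  obtain ⟨c, hc⟩ := hres P inferInstance a
  refine ⟨c, ?_⟩
  rw [show y - algebraMap k D c * w = w * (a - algebraMap k D c) + e by rw [← hae]; ring]
  refine add_mem ?_ he
  rw [pow_succ]
  exact Ideal.mul_mem_mul hw.1 hc

variable (G) in
/-- The stabiliser of a point. -/
def stabSet [Fintype G] (P : Ideal D) : Finset G := by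
  classical exact Finset.univ.filter fun g => pre g P = P

theorem mem_stabSet [Fintype G] {P : Ideal D} {g : G} : g ∈ stabSet G P ↔ pre g P = P := by
  classical simp [stabSet]

variable [Fintype G] [SMulCommClass G k D] [FaithfulSMul G D]

theorem smul_algebraMap' (g : G) (c : k) : g • algebraMap k D c = algebraMap k D c := by
  rw [Algebra.algebraMap_eq_smul_one, smul_comm, smul_one]

theorem card_stabSet_pos (P : Ideal D) : 0 < (stabSet G P).card :=
  Finset.card_pos.mpr ⟨1, mem_stabSet.mpr (pre_one P)⟩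

/-- The order of a fixed element at a point is a multiple of the order of the stabiliser. -/
theorem card_stabSet_dvd (hres : RationalPoints k D) {P : Ideal D} [P.IsMaximal] (hP : P ≠ ⊥)
    {t u : D} (ht : ExactOrd P t 1) (hu : ∀ g : G, g • u = u)
    (hud : ExactOrd P u (stabSet G P).card) {s : D} (hs : ∀ g : G, g • s = s) {n : ℕ}
    (hsn : ExactOrd P s n) : (stabSet G P).card ∣ n := by
  classical
  set S := stabSet G P
  set d := S.card with hd
  by_contra hdn
  have hdpos : 0 < d := card_stabSet_pos P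
  have hPp : Prime P := Ideal.prime_of_isPrime hP inferInstance
  set g := Nat.gcd n d with hg
  have hgd : g < d := lt_of_le_of_ne (Nat.le_of_dvd hdpos (Nat.gcd_dvd_right n d))
    fun h => hdn (h ▸ Nat.gcd_dvd_left n d)
  have hgpos : 0 < g := Nat.gcd_pos_of_pos_right n hdpos
  obtain ⟨a₀, -, ha₀⟩ := Nat.exists_mul_mod_eq_gcd hgd
  set c₀ := n * a₀ / d with hc₀
  have heq : n * a₀ = g + c₀ * d := by
    have := Nat.mod_add_div (n * a₀) d
    rw [ha₀] at this
    rw [hc₀, mul_comm (n * a₀ / d) d]
    omega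
  set C := d * c₀ * d with hC
  -- monomials of every large order
  have hmon : ∀ N, C ≤ N → ∃ (r : Fin g) (a b : ℕ),
      ExactOrd P (s ^ a * u ^ b * t ^ (r : ℕ)) N := by
    intro N hN
    set q := N / d
    set e := N % d
    have hqe : d * q + e = N := Nat.div_add_mod N d
    have hed : e < d := Nat.mod_lt _ hdpos
    set i := e / g
    have hier : g * i + e % g = e := Nat.div_add_mod e g
    have hi : i ≤ d := (Nat.div_le_self e g).trans hed.le
    have hq : d * c₀ ≤ q := by
      rw [Nat.le_div_iff_mul_le hdpos]; exact hN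
    have hqi : i * c₀ ≤ q := (Nat.mul_le_mul_right c₀ hi).trans hq
    refine ⟨⟨e % g, Nat.mod_lt _ hgpos⟩, a₀ * i, q - i * c₀, ?_⟩
    convert ((hsn.pow hPp (a₀ * i)).mul hPp (hud.pow hPp (q - i * c₀))).mul hPp
      (ht.pow hPp (e % g)) using 1
    obtain ⟨z, hz⟩ := Nat.exists_eq_add_of_le hqi
    rw [hz, Nat.add_sub_cancel_left]
    rw [hz] at hqe
    nlinarith [hqe, hier, heq]
  -- expansions in `t`
  have hexp : ∀ x ∈ P ^ C, ∀ m : ℕ, ∃ f : Fin g → D, (∀ i (γ : G), γ • f i = f i) ∧
      x - ∑ i, f i * t ^ (i : ℕ) ∈ P ^ (C + m) := by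
    intro x hx m
    induction m with
    | zero => exact ⟨fun _ => 0, fun _ _ => smul_zero _, by simpa using hx⟩
    | succ m ih =>
      obtain ⟨f, hf, hfx⟩ := ih
      obtain ⟨r, a, b, hw⟩ := hmon (C + m) (Nat.le_add_right C m)
      obtain ⟨c, hc⟩ := exists_sub_const_mul_mem hres hP hw hfx
      refine ⟨Function.update f r (f r + algebraMap k D c * (s ^ a * u ^ b)), fun i γ => ?_, ?_⟩
      · by_cases hir : i = r
        · subst hir
          rw [Function.update_self, smul_add, smul_mul', smul_mul', smul_pow', smul_pow', hs, hu,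
            hf, smul_algebraMap']
        · rw [Function.update_of_ne hir, hf]
      · rw [← add_assoc]
        convert hc using 1
        have hsum : ∑ i, Function.update f r (f r + algebraMap k D c * (s ^ a * u ^ b)) i *
            t ^ (i : ℕ) = (∑ i, f i * t ^ (i : ℕ)) +
              algebraMap k D c * (s ^ a * u ^ b * t ^ (r : ℕ)) := by
          rw [← Finset.add_sum_erase _ _ (Finset.mem_univ r),
            ← Finset.add_sum_erase _ (fun i => f i * t ^ (i : ℕ)) (Finset.mem_univ r),
            Function.update_self, Finset.sum_congr rfl fun i hi => by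
              rw [Function.update_of_ne (Finset.ne_of_mem_erase hi)]]
          ring
        rw [hsum]; ring
  -- stabilising elements are determined by their value at `t`
  have hinj : Set.InjOn (fun h : G => h • t) (S : Set G) := by
    intro h₁ h1 h₂ h2 he
    simp only [Finset.mem_coe, S, mem_stabSet] at h1 h2
    simp only at he
    refine eq_of_smul_eq_smul (α := D) fun x => ?_
    have key : ∀ y ∈ P ^ C, h₁ • y = h₂ • y := by
      intro y hy
      by_contra hne
      obtain ⟨m, -, hm⟩ := exists_exactOrd_ne_zero hP inferInstance (sub_ne_zero.mpr hne)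
      obtain ⟨f, hf, hfy⟩ := hexp y hy (m + 1)
      have e1 := smul_mem_pow_of_pre_eq h1 hfy
      have e2 := smul_mem_pow_of_pre_eq h2 hfy
      simp only [smul_sub, Finset.smul_sum, smul_mul', smul_pow', hf, he] at e1 e2
      have e3 := sub_mem e1 e2
      rw [sub_sub_sub_cancel_right] at e3
      exact hm (Ideal.pow_le_pow_right (Nat.le_add_left _ _) e3)
    obtain ⟨w, hw, hw0⟩ := Submodule.exists_mem_ne_zero_of_ne_bot (pow_ne_zero C hP)
    have e1 := key (x * w) (Ideal.mul_mem_left _ x hw)
    rw [smul_mul', smul_mul', key w hw] at e1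
    refine mul_right_cancel₀ ?_ e1
    exact fun h0 => hw0 (by rw [← inv_smul_smul h₂ w, h0, smul_zero])
  obtain ⟨S', hS', hcard⟩ := Finset.exists_subset_card_eq (s := S) (n := g + 1) hgd
  obtain ⟨e⟩ : Nonempty (Fin (g + 1) ≃ S') := ⟨(Finset.equivFinOfCardEq hcard).symm⟩
  set z : Fin (g + 1) → D := fun i => (e i : G) • t with hz
  set V := Matrix.vandermonde z
  have hV : V.det ≠ 0 := Matrix.det_vandermonde_ne_zero_iff.mpr fun i j hij =>
    e.injective (Subtype.ext (hinj (hS' (e i).2) (hS' (e j).2) hij))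
  set x := u ^ (d * c₀) * t ^ g with hxdef
  have hx : x ∈ P ^ C := by
    refine Ideal.pow_le_pow_right ?_ ((hud.pow hPp (d * c₀)).mul hPp (ht.pow hPp g)).1
    rw [hC]; exact Nat.le_add_right _ _
  have hall : ∀ m, V.det * u ^ (d * c₀) ∈ P ^ m := by
    intro m
    obtain ⟨f, hf, hfx⟩ := hexp x hx m
    set v : Fin (g + 1) → D := Fin.snoc (fun i => -f i) (u ^ (d * c₀))
    have hmem : ∀ i, V.mulVec v i ∈ P ^ m := by
      intro i
      have h1 := Ideal.pow_le_pow_right (Nat.le_add_left m C)
        (smul_mem_pow_of_pre_eq (mem_stabSet.mp (hS' (e i).2)) hfx)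
      simp only [hxdef, smul_sub, Finset.smul_sum, smul_mul', smul_pow', hf, hu] at h1
      convert h1 using 1
      simp only [Matrix.mulVec, dotProduct, Fin.sum_univ_castSucc, V, Matrix.vandermonde_apply, v,
        Fin.snoc_castSucc, Fin.snoc_last, Fin.val_castSucc, Fin.val_last, mul_neg,
        Finset.sum_neg_distrib, hz]
      rw [mul_comm _ (u ^ (d * c₀)), Finset.sum_congr rfl fun i _ => mul_comm _ (f i)]
      ring
    have h2 : (V.adjugate.mulVec (V.mulVec v)) (Fin.last g) ∈ P ^ m := by
      simp only [Matrix.mulVec, dotProduct]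
      exact sum_mem fun j _ => Ideal.mul_mem_left _ _ (hmem j)
    rw [Matrix.mulVec_mulVec, Matrix.adjugate_mul, Matrix.smul_mulVec, Matrix.one_mulVec] at h2
    simpa [v] using h2
  have hu0 : u ≠ 0 := fun h => hud.2 (h ▸ zero_mem _)
  have h0 : V.det * u ^ (d * c₀) ∈ ⨅ m, P ^ m := by simpa [Ideal.mem_iInf] using hall
  rw [Ideal.iInf_pow_eq_bot_of_isDomain P ((inferInstance : P.IsMaximal).ne_top), Ideal.mem_bot]
    at h0
  exact mul_ne_zero hV (pow_ne_zero _ hu0) h0

/-- An element of order one at `P` and of order zero at finitely many other points. -/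
theorem exists_exactOrd_one {P : Ideal D} [P.IsMaximal] (hP : P ≠ ⊥) (F : Finset (Ideal D))
    (hF : ∀ Q ∈ F, Q.IsMaximal ∧ Q ≠ ⊥) :
    ∃ t : D, ExactOrd P t 1 ∧ ∀ Q ∈ F, Q ≠ P → ExactOrd Q t 0 := by
  classical
  obtain ⟨π, hπ1, hπ2⟩ := SetLike.exists_of_lt (Ideal.pow_succ_lt_pow hP 1)
  have hs : ∀ Q ∈ insert P F, Prime Q := fun Q hQ => by
    rcases Finset.mem_insert.mp hQ with rfl | hQ
    · exact Ideal.prime_of_isPrime hP inferInstance
    · haveI := (hF Q hQ).1
      exact Ideal.prime_of_isPrime (hF Q hQ).2 inferInstance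
  obtain ⟨t, ht⟩ := IsDedekindDomain.exists_forall_sub_mem_ideal (s := insert P F) id
    (fun Q => if Q = P then 2 else 1) hs (fun Q _ R _ h => h)
    (fun Q => if (Q : Ideal D) = P then π else 1)
  have htP := ht P (Finset.mem_insert_self P F)
  simp only [id, if_true] at htP
  refine ⟨t, ⟨?_, fun h => hπ2 ?_⟩, fun Q hQ hQP => ?_⟩
  · have := add_mem (Ideal.pow_le_pow_right one_le_two htP) hπ1
    rwa [sub_add_cancel] at this
  · have := sub_mem h htP
    rwa [sub_sub_cancel] at this
  · have htQ := ht Q (Finset.mem_insert_of_mem hQ)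
    simp only [id, if_neg hQP, pow_one] at htQ
    rw [exactOrd_zero_iff]
    intro h
    have := sub_mem h htQ
    rw [sub_sub_cancel] at this
    exact (hF Q hQ).1.ne_top ((Ideal.eq_top_iff_one Q).mpr this)

/-- Some trace is nonzero. -/
theorem exists_trace_ne_zero {D G : Type*} [CommRing D] [IsDomain D] [Group G] [Fintype G]
    [MulSemiringAction G D] [FaithfulSMul G D] : ∃ c : D, ∑ g : G, g • c ≠ 0 := by
  by_contra h
  push Not at h
  set φ : G → (D →* D) := fun g => (MulSemiringAction.toRingHom G D g).toMonoidHom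
  have hφ : Function.Injective φ := fun g g' he =>
    eq_of_smul_eq_smul (α := D) fun x => DFunLike.congr_fun he x
  have hli := (linearIndependent_monoidHom D D).comp φ hφ
  have h2 := Fintype.linearIndependent_iff.mp hli (fun _ => (1 : D))
    (funext fun x => by simpa [φ] using h x) 1
  exact one_ne_zero h2

variable (T : Subalgebra k D)

theorem exists_approx (hres : RationalPoints k D) (hfix : ∀ x ∈ T, ∀ g : G, g • x = x)
    (hnorm : ∀ x : D, (∏ g : G, g • x) ∈ T) (F : Finset (Ideal D))
    (hF : ∀ Q ∈ F, Q.IsMaximal ∧ Q ≠ ⊥) (hstab : ∀ Q ∈ F, ∀ g : G, pre g Q ∈ F) (n : ℕ)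
    {s : D} (hs : ∀ g : G, g • s = s) : ∃ x ∈ T, ∀ Q ∈ F, s - x ∈ Q ^ n := by
  classical
  -- norms of local parameters
  have hu : ∀ P ∈ F, ∃ t u : D, u ∈ T ∧ ExactOrd P t 1 ∧ ExactOrd P u (stabSet G P).card ∧
      ∀ Q ∈ F, (∀ g : G, pre g Q ≠ P) → ExactOrd Q u 0 := by
    intro P hP
    haveI := (hF P hP).1
    obtain ⟨t, ht, ht0⟩ := exists_exactOrd_one (hF P hP).2 F hF
    have key : ∀ Q ∈ F, ExactOrd Q (∏ g : G, g • t)
        (Finset.univ.filter fun g : G => pre g Q = P).card := by
      intro Q hQ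
      haveI := (hF Q hQ).1
      rw [Finset.card_filter]
      refine ExactOrd.prod (Ideal.prime_of_isPrime (hF Q hQ).2 inferInstance) _ fun g _ => ?_
      rw [exactOrd_smul]
      split_ifs with h
      · rw [h]; exact ht
      · exact ht0 _ (hstab Q hQ g) h
    refine ⟨t, _, hnorm t, ht, key P hP, fun Q hQ h => ?_⟩
    have := key Q hQ
    rwa [Finset.filter_false_of_mem (fun g _ => h g), Finset.card_empty] at this
  choose! t u huT ht hud hu0 using hu
  induction n with
  | zero => exact ⟨0, zero_mem T, fun Q _ => by simp⟩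
  | succ n ih =>
    obtain ⟨x₀, hx₀, hx₀n⟩ := ih
    have main : ∀ F' ⊆ F, ∃ x ∈ T, (∀ Q ∈ F, s - x ∈ Q ^ n) ∧ ∀ Q ∈ F', s - x ∈ Q ^ (n + 1) := by
      intro F' hF'
      induction F' using Finset.induction_on with
      | empty => exact ⟨x₀, hx₀, hx₀n, by simp⟩
      | @insert P F' hPF' ih =>
        obtain ⟨hPF, hF''⟩ := Finset.insert_subset_iff.mp hF'
        obtain ⟨x, hx, hxn, hxd⟩ := ih hF''
        by_cases hP1 : s - x ∈ P ^ (n + 1)
        · exact ⟨x, hx, hxn, (Finset.forall_mem_insert _ _ _).mpr ⟨hP1, hxd⟩⟩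
        haveI := (hF P hPF).1
        have hPp : Prime P := Ideal.prime_of_isPrime (hF P hPF).2 inferInstance
        have hy : ∀ g : G, g • (s - x) = s - x := fun g => by rw [smul_sub, hs, hfix x hx]
        have hye : ExactOrd P (s - x) n := ⟨hxn P hPF, hP1⟩
        obtain ⟨q, hq⟩ := card_stabSet_dvd hres (hF P hPF).2 (ht P hPF) (hfix _ (huT P hPF))
          (hud P hPF) hy hye
        set O := F.filter fun Q => ∀ g : G, pre g Q ≠ P
        set w := u P ^ q * ∏ R ∈ O, u R ^ (n + 1)
        have hwT : w ∈ T := mul_mem (pow_mem (huT P hPF) q)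
          (prod_mem fun R hR => pow_mem (huT R (Finset.filter_subset _ _ hR)) _)
        have hwP : ExactOrd P w n := by
          have h2 : ExactOrd P (∏ R ∈ O, u R ^ (n + 1)) (∑ _R ∈ O, (n + 1) * 0) := by
            refine ExactOrd.prod hPp _ fun R hR => (ExactOrd.pow hPp ?_ _)
            obtain ⟨hRF, hR'⟩ := Finset.mem_filter.mp hR
            refine hu0 R hRF P hPF fun g hg => hR' g⁻¹ ?_
            rw [← hg, pre_pre, mul_inv_cancel, pre_one]
          convert ((hud P hPF).pow hPp q).mul hPp h2 using 1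
          rw [hq]; simp [mul_comm]
        have hwout : ∀ Q ∈ O, w ∈ Q ^ (n + 1) := fun Q hQ => by
          obtain ⟨hQF, -⟩ := Finset.mem_filter.mp hQ
          refine Ideal.mul_mem_left _ _ (Ideal.prod_mem _ hQ (Ideal.pow_mem_pow ?_ _))
          have h1 := (hud Q hQF).1
          have := card_stabSet_pos (G := G) Q
          exact Ideal.pow_le_self (by omega) h1
        have hwn : ∀ Q ∈ F, w ∈ Q ^ n := fun Q hQ => by
          by_cases h : Q ∈ O
          · exact Ideal.pow_le_pow_right (Nat.le_succ n) (hwout Q h)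
          · obtain ⟨g, hg⟩ : ∃ g : G, pre g Q = P := by
              by_contra hne
              push Not at hne
              exact h (Finset.mem_filter.mpr ⟨hQ, hne⟩)
            have h1 := hwP.1
            rw [← hg, pre_pow, mem_pre, hfix w hwT] at h1
            exact h1
        obtain ⟨c, hc⟩ := exists_sub_const_mul_mem hres (hF P hPF).2 hwP hye.1
        refine ⟨x + algebraMap k D c * w, add_mem hx (mul_mem (T.algebraMap_mem c) hwT),
          fun Q hQ => ?_, (Finset.forall_mem_insert _ _ _).mpr ⟨?_, fun Q hQ => ?_⟩⟩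
        · rw [← sub_sub]; exact sub_mem (hxn Q hQ) (Ideal.mul_mem_left _ _ (hwn Q hQ))
        · rwa [← sub_sub]
        · by_cases h : Q ∈ O
          · rw [← sub_sub]; exact sub_mem (hxd Q hQ) (Ideal.mul_mem_left _ _ (hwout Q h))
          · obtain ⟨g, hg⟩ : ∃ g : G, pre g Q = P := by
              by_contra hne
              push Not at hne
              exact h (Finset.mem_filter.mpr ⟨hF'' hQ, hne⟩)
            have h1 := hc
            rw [← hg, pre_pow, mem_pre, smul_sub, hy, smul_mul', smul_algebraMap', hfix w hwT,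
              sub_sub] at h1
            exact h1
    obtain ⟨x, hx, -, h⟩ := main F subset_rfl
    exact ⟨x, hx, h⟩

/-- A subalgebra of fixed elements containing all norms and traces is the whole fixed ring. -/
theorem mem_of_fixed (hres : RationalPoints k D) (hfix : ∀ x ∈ T, ∀ g : G, g • x = x)
    (hnorm : ∀ x : D, (∏ g : G, g • x) ∈ T) (htrace : ∀ x : D, (∑ g : G, g • x) ∈ T)
    {s : D} (hs : ∀ g : G, g • s = s) : s ∈ T := by
  classical
  obtain ⟨c, hc⟩ := exists_trace_ne_zero (D := D) (G := G)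
  set τ := ∑ g : G, g • c with hτdef
  have hτT : τ ∈ T := htrace c
  have hτ0 : Ideal.span {τ} ≠ ⊥ := by simpa [Ideal.span_singleton_eq_bot] using hc
  have hfin : {Q : Ideal D | Q.IsMaximal ∧ τ ∈ Q}.Finite := by
    have h1 := UniqueFactorizationMonoid.fintypeSubtypeDvd (Ideal.span {τ}) hτ0
    refine Set.Finite.subset (Set.finite_coe_iff.mp (Finite.of_fintype
      {Q : Ideal D // Q ∣ Ideal.span {τ}})) fun Q hQ => ?_
    exact Ideal.dvd_span_singleton.mpr hQ.2
  set F := hfin.toFinset
  have hFmem : ∀ Q, Q ∈ F ↔ Q.IsMaximal ∧ τ ∈ Q := fun Q => by simp [F]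
  have hF : ∀ Q ∈ F, Q.IsMaximal ∧ Q ≠ ⊥ := fun Q hQ => by
    refine ⟨((hFmem Q).mp hQ).1, fun h => ?_⟩
    have := ((hFmem Q).mp hQ).2
    rw [h, Ideal.mem_bot] at this
    exact hc this
  have hstab : ∀ Q ∈ F, ∀ g : G, pre g Q ∈ F := fun Q hQ g => by
    haveI := ((hFmem Q).mp hQ).1
    refine (hFmem _).mpr ⟨inferInstance, ?_⟩
    rw [mem_pre, hfix τ hτT]
    exact ((hFmem Q).mp hQ).2
  obtain ⟨A, hA⟩ := (Ideal.span {τ}).exists_radical_pow_le_of_fg
    (IsNoetherian.noetherian _)
  obtain ⟨x, hx, hxA⟩ := exists_approx T hres hfix hnorm F hF hstab A hs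
  have hrad : ∏ Q ∈ F, Q ≤ (Ideal.span {τ}).radical := by
    rw [Ideal.radical_eq_sInf]
    refine le_sInf fun J hJ => ?_
    haveI := hJ.2
    have hJ0 : J ≠ ⊥ := ne_bot_of_le_ne_bot hτ0 hJ.1
    have hJm : J ∈ F := (hFmem J).mpr ⟨hJ.2.isMaximal hJ0,
      hJ.1 (Ideal.mem_span_singleton_self τ)⟩
    exact Ideal.le_of_dvd (Finset.dvd_prod_of_mem _ hJm)
  have hmem : s - x ∈ Ideal.span {τ} := by
    apply hA
    refine Ideal.pow_right_mono hrad A ?_
    rw [← Finset.prod_pow,
      ← IsDedekindDomain.inf_pow_eq_prod_of_prime F (fun Q : Ideal D => Q) (fun _ => A)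
        (fun Q hQ => by
          haveI := (hF Q hQ).1
          exact Ideal.prime_of_isPrime (hF Q hQ).2 inferInstance)
        (fun Q _ R _ h => h)]
    exact (Submodule.mem_finsetInf).mpr hxA
  obtain ⟨s₁, hs₁⟩ := Ideal.mem_span_singleton.mp hmem
  have hs₁fix : ∀ g : G, g • s₁ = s₁ := fun g => mul_left_cancel₀ hc (by
    have h1 : g • (s - x) = s - x := by rw [smul_sub, hs, hfix x hx]
    rw [hs₁, smul_mul', hfix τ hτT] at h1
    exact h1)
  have : τ * s₁ ∈ T := by
    have h1 := htrace (c * s₁)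
    simp only [smul_mul', hs₁fix, ← Finset.sum_mul] at h1
    exact h1
  have h2 := add_mem hx this
  rwa [← hs₁, add_sub_cancel] at h2

end FermatAgent.Igusa.Down
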