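import Fermat.Agent.Igusa.Fibre.Residual
import Fermat.Agent.Igusa.Down.FixedRing
import Fermat.Agent.Igusa.Down.DedekindFinite

/-!
# The residual ring as a Dedekind domain over `k[j]`, and descent of invariants

`Res M R ρ` is integral over `k[j]`; if it is integrally closed and only elements acting trivially
on `intFun M R` act trivially on it, then it is a Dedekind domain and, for any `H ≤ SL(2, ℤ)`,
every `H`-fixed residual function is the class of an `H`-invariant integral function.
-/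

set_option autoImplicit false
set_option linter.style.haveILetI false
set_option linter.unusedSectionVars false
set_option synthInstance.maxHeartbeats 100000
set_option maxHeartbeats 800000

noncomputable section

open UpperHalfPlane hiding I
open Function Polynomial
open scoped MatrixGroups

namespace FermatAgent.Igusa.Down

open FermatAgent.Igusa ModularCurve

variable {M : ℕ} [NeZero M] {R : Subring ℂ} {k : Type*} [Field k] {ρ : R →+* k}

variable (M ρ) in
/-- Only elements acting trivially on `intFun M R` act trivially on the residual ring. -/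
def FaithfulAction (hD : decompGroup (M := M) ρ = ⊤) : Prop :=
  ∀ γ : SL(2, ℤ), (∀ x : Res M R ρ, resSmul ρ hD γ x = x) → ∀ f : intFun M R, γ • f = f

theorem redExp_constHom (c : R) : redExp M R ρ (constHom M R c) = HahnSeries.C (ρ c) := by
  rw [redExp, RingHom.comp_apply, intExp_constHom, HahnSeries.C_apply, coeffMap_single,
    HahnSeries.C_apply]

theorem ker_le_ker_const :
    RingHom.ker ρ ≤ RingHom.ker ((toRes M R ρ).comp (constHom M R)) := fun c hc => by
  rw [RingHom.mem_ker, RingHom.comp_apply, Ideal.Quotient.eq_zero_iff_mem]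
  show redExp M R ρ (constHom M R c) = 0
  rw [redExp_constHom, RingHom.mem_ker.mp hc, map_zero]

section Const

variable (hρ : Surjective ρ)

variable (M) in
/-- The constants of the residual ring. -/
def resConst : k →+* Res M R ρ :=
  RingHom.liftOfSurjective ρ hρ ⟨(toRes M R ρ).comp (constHom M R), ker_le_ker_const⟩

theorem resConst_apply (c : R) : resConst M hρ (ρ c) = toRes M R ρ (constHom M R c) :=
  RingHom.liftOfSurjective_comp_apply ρ hρ _ _

variable (M) in
/-- `k[j]` in the residual ring. -/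
def resPoly : k[X] →+* Res M R ρ :=
  eval₂RingHom (resConst M hρ) (toRes M R ρ (jInt M R))

theorem resPoly_map (P : R[X]) : resPoly M hρ (P.map ρ) = toRes M R ρ (polyInt M R P) := by
  rw [resPoly, coe_eval₂RingHom, eval₂_map, polyInt, coe_eval₂RingHom, hom_eval₂]
  congr 1
  exact RingHom.ext fun c => resConst_apply hρ c

theorem exists_resPoly_eq (P : k[X]) :
    ∃ Q : R[X], Q.map ρ = P ∧ resPoly M hρ P = toRes M R ρ (polyInt M R Q) := by
  obtain ⟨Q, rfl⟩ := Polynomial.map_surjective ρ hρ P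
  exact ⟨Q, rfl, resPoly_map hρ Q⟩

theorem resExp_resPoly (P : k[X]) :
    resExp M R ρ (resPoly M hρ P) = aeval (qExpand k M (jqModC k)) P := by
  obtain ⟨Q, rfl, h⟩ := exists_resPoly_eq (M := M) hρ P
  rw [h, resExp_toRes, redExp_polyInt']

theorem resPoly_injective : Injective (resPoly M hρ) :=
  (injective_iff_map_eq_zero _).mpr fun P hP => by
    by_contra hne
    exact (qExpand_jqModC_transcendental k M P hne).1
      (by rw [← resExp_resPoly hρ, hP, map_zero])

theorem resPoly_C (c : k) : resPoly M hρ (C c) = resConst M hρ c := by simp [resPoly]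

theorem resSmul_resPoly (hD : decompGroup (M := M) ρ = ⊤) (γ : SL(2, ℤ)) (P : k[X]) :
    resSmul ρ hD γ (resPoly M hρ P) = resPoly M hρ P := by
  obtain ⟨Q, -, h⟩ := exists_resPoly_eq (M := M) hρ P
  rw [h, resSmul_toRes, smul_polyInt]

theorem isIntegralElem_resPoly (x : Res M R ρ) : (resPoly M hρ).IsIntegralElem x := by
  obtain ⟨f, rfl⟩ := Ideal.Quotient.mk_surjective x
  obtain ⟨F, hFm, hF⟩ := exists_monic_root f
  refine ⟨F.map (mapRingHom ρ), hFm.map _, ?_⟩
  rw [eval₂_map]
  have hcomp : (resPoly M hρ).comp (mapRingHom ρ) = (toRes M R ρ).comp (polyInt M R) :=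
    RingHom.ext fun P => resPoly_map hρ P
  rw [hcomp, ← hom_eval₂, hF, map_zero]

variable [IsAlgClosed k]

/-- All points of the residual curve are rational. -/
theorem exists_const_sub_mem (P : Ideal (Res M R ρ)) (hP : P.IsMaximal) (x : Res M R ρ) :
    ∃ c : k, x - resConst M hρ c ∈ P := by
  let : Field (Res M R ρ ⧸ P) := Ideal.Quotient.field P
  let q : Res M R ρ →+* Res M R ρ ⧸ P := Ideal.Quotient.mk P
  letI : Algebra k (Res M R ρ ⧸ P) := (q.comp (resConst M hρ)).toAlgebra
  letI : Algebra k[X] (Res M R ρ ⧸ P) := (q.comp (resPoly M hρ)).toAlgebra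
  haveI : IsScalarTower k k[X] (Res M R ρ ⧸ P) := IsScalarTower.of_algebraMap_eq fun c => by
    show q (resConst M hρ c) = q (resPoly M hρ (algebraMap k k[X] c))
    rw [Polynomial.algebraMap_eq, resPoly_C]
  haveI hint : Algebra.IsIntegral k[X] (Res M R ρ ⧸ P) := ⟨fun y => by
    obtain ⟨z, rfl⟩ := Ideal.Quotient.mk_surjective y
    obtain ⟨F, hFm, hF⟩ := isIntegralElem_resPoly hρ z
    refine ⟨F, hFm, ?_⟩
    show F.eval₂ (q.comp (resPoly M hρ)) (q z) = 0
    rw [← hom_eval₂, hF, map_zero]⟩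
  -- `j` is algebraic over `k` modulo `P`
  have hne : RingHom.ker (algebraMap k[X] (Res M R ρ ⧸ P)) ≠ ⊥ := by
    intro h
    have hmax : (RingHom.ker (algebraMap k[X] (Res M R ρ ⧸ P))).IsMaximal := by
      have : (⊥ : Ideal (Res M R ρ ⧸ P)).IsMaximal := Ideal.bot_isMaximal
      exact Ideal.isMaximal_comap_of_isIntegral_of_isMaximal (R := k[X]) ⊥
    rw [h] at hmax
    exact Polynomial.not_isField (R := k) (Ring.isField_iff_maximal_bot.mpr hmax)
  obtain ⟨p, hp, hp0⟩ := Submodule.exists_mem_ne_zero_of_ne_bot hne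
  have hjint : IsIntegral k (algebraMap k[X] (Res M R ρ ⧸ P) X) := by
    refine IsAlgebraic.isIntegral ⟨p, hp0, ?_⟩
    have h1 : aeval (algebraMap k[X] (Res M R ρ ⧸ P) X) p = algebraMap k[X] _ p := by
      rw [aeval_algebraMap_apply, aeval_X_left_apply]
    rw [h1]; exact hp
  have hall : ∀ r : k[X], IsIntegral k (algebraMap k[X] (Res M R ρ ⧸ P) r) := fun r => by
    rw [show r = aeval X r from (aeval_X_left_apply r).symm, ← aeval_algebraMap_apply]
    exact IsIntegral.of_mem_of_fg _ hjint.fg_adjoin_singleton _ (aeval_mem_adjoin_singleton k _)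
  have key : ∀ y : Res M R ρ ⧸ P, IsIntegral k y → ∃ c, algebraMap k _ c = y := fun y hy =>
    minpoly.degree_eq_one_iff.mp
      (IsAlgClosed.degree_eq_one_of_irreducible k (minpoly.irreducible hy))
  obtain ⟨F, hFm, hF⟩ := hint.isIntegral (q x)
  have hc : ∀ r : k[X], ∃ c : k, algebraMap k _ c = algebraMap k[X] (Res M R ρ ⧸ P) r := fun r =>
    key _ (hall r)
  have hxint : IsIntegral k (q x) := by
    choose c hc' using hc
    have hl : F.map (algebraMap k[X] (Res M R ρ ⧸ P)) ∈
        lifts (algebraMap k (Res M R ρ ⧸ P)) :=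
      (lifts_iff_coeff_lifts _).mpr fun i => ⟨c (F.coeff i), by rw [coeff_map, hc']⟩
    obtain ⟨G, hG, -, hGm⟩ := lifts_and_natDegree_eq_and_monic hl (hFm.map _)
    refine ⟨G, hGm, ?_⟩
    rw [eval₂_eq_eval_map, hG, ← eval₂_eq_eval_map]
    exact hF
  obtain ⟨c, hc⟩ := key _ hxint
  exact ⟨c, (Ideal.Quotient.eq).mp hc.symm⟩

end Const

section Action

variable (hD : decompGroup (M := M) ρ = ⊤)

/-- `SL(2, ℤ)` acting on the residual ring. -/
def resAut : SL(2, ℤ) →* RingAut (Res M R ρ) where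
  toFun γ := RingEquiv.ofRingHom (resSmul ρ hD γ) (resSmul ρ hD γ⁻¹)
    (RingHom.ext fun x => by simp [← resSmul_mul, resSmul_one])
    (RingHom.ext fun x => by simp [← resSmul_mul, resSmul_one])
  map_one' := RingEquiv.ext fun x => resSmul_one ρ hD x
  map_mul' γ δ := RingEquiv.ext fun x => resSmul_mul ρ hD γ δ x

@[simp] theorem resAut_apply (γ : SL(2, ℤ)) (x : Res M R ρ) :
    resAut hD γ x = resSmul ρ hD γ x := rfl

theorem finite_map_resAut (H : Subgroup SL(2, ℤ)) : Finite (H.map (resAut hD)) := by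
  refine Set.Finite.to_subtype (Set.Finite.subset (Set.finite_range
    fun c : SL(2, ℤ) ⧸ CongruenceSubgroup.Gamma M => resAut hD c.out) ?_)
  rintro _ ⟨γ, -, rfl⟩
  refine ⟨QuotientGroup.mk γ, ?_⟩
  obtain ⟨h, hh⟩ := QuotientGroup.mk_out_eq_mul (CongruenceSubgroup.Gamma M) γ
  refine RingEquiv.ext fun x => ?_
  obtain ⟨f, rfl⟩ := Ideal.Quotient.mk_surjective x
  simp only [resAut_apply, resSmul_toRes, hh, mul_smul, smul_of_mem_gamma M R h.2]

theorem smul_eq_of_resAut_eq (hker : FaithfulAction M ρ hD) {γ δ : SL(2, ℤ)}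
    (h : resAut hD γ = resAut hD δ) (f : intFun M R) : γ • f = δ • f := by
  have h1 : (δ⁻¹ * γ) • f = f := hker _ (fun y => by
    rw [resSmul_mul, ← resAut_apply hD γ, h, resAut_apply, ← resSmul_mul, inv_mul_cancel,
      resSmul_one]) f
  rwa [mul_smul, inv_smul_eq_iff] at h1

variable {H : Subgroup SL(2, ℤ)}

/-- Invariant lifts of sums and products over the image of `H`. -/
theorem exists_invariant_sum_prod (hker : FaithfulAction M ρ hD)
    [Fintype (H.map (resAut hD))] (x : Res M R ρ) :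
    (∃ f : intFun M R, (∀ γ ∈ H, γ • f = f) ∧
      toRes M R ρ f = ∑ g : H.map (resAut hD), g • x) ∧
    (∃ f : intFun M R, (∀ γ ∈ H, γ • f = f) ∧
      toRes M R ρ f = ∏ g : H.map (resAut hD), g • x) := by
  classical
  obtain ⟨f₀, rfl⟩ := Ideal.Quotient.mk_surjective x
  choose s hsH hs using fun g : H.map (resAut hD) => Subgroup.mem_map.mp g.2
  have hcl : ∀ g : H.map (resAut hD), toRes M R ρ (s g • f₀) = g • toRes M R ρ f₀ := fun g => by
    rw [← resSmul_toRes ρ hD, ← resAut_apply, hs]; rfl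
  have hperm : ∀ (γ : SL(2, ℤ)) (a g : H.map (resAut hD)),
      resAut hD γ = (a : RingAut (Res M R ρ)) → γ • s g • f₀ = s (a * g) • f₀ := by
    intro γ a g ha
    rw [← mul_smul]
    refine smul_eq_of_resAut_eq hD hker ?_ f₀
    rw [map_mul, hs (a * g), hs g, ha]
    rfl
  have hmem : ∀ γ ∈ H, ∃ a : H.map (resAut hD), resAut hD γ = (a : RingAut (Res M R ρ)) :=
    fun γ hγ => ⟨⟨resAut hD γ, Subgroup.mem_map_of_mem _ hγ⟩, rfl⟩
  have hbij : ∀ a : H.map (resAut hD), Function.Bijective fun g : H.map (resAut hD) => a * g :=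
    fun a => Group.mulLeft_bijective a
  refine ⟨⟨∑ g, s g • f₀, fun γ hγ => ?_, ?_⟩, ⟨∏ g, s g • f₀, fun γ hγ => ?_, ?_⟩⟩
  · obtain ⟨a, ha⟩ := hmem γ hγ
    rw [Finset.smul_sum]
    exact Fintype.sum_bijective _ (hbij a) (fun g => γ • s g • f₀) (fun g => s g • f₀)
      fun g => hperm γ a g ha
  · rw [map_sum]; exact Finset.sum_congr rfl fun g _ => hcl g
  · obtain ⟨a, ha⟩ := hmem γ hγ
    rw [Finset.smul_prod']
    exact Fintype.prod_bijective _ (hbij a) (fun g => γ • s g • f₀) (fun g => s g • f₀)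
      fun g => hperm γ a g ha
  · rw [map_prod]; exact Finset.prod_congr rfl fun g _ => hcl g

variable (hρ : Surjective ρ) [IsAlgClosed k]

include hρ

/-- The residual ring is a Dedekind domain. -/
theorem isDedekindDomain_res [IsIntegrallyClosed (Res M R ρ)] (hker : FaithfulAction M ρ hD) :
    IsDedekindDomain (Res M R ρ) := by
  classical
  haveI : Finite ((⊤ : Subgroup SL(2, ℤ)).map (resAut hD)) := finite_map_resAut hD ⊤
  letI : Fintype ((⊤ : Subgroup SL(2, ℤ)).map (resAut hD)) := Fintype.ofFinite _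
  obtain ⟨c, hc⟩ := exists_trace_ne_zero (D := Res M R ρ) (G := (⊤ : Subgroup SL(2, ℤ)).map (resAut hD))
  refine isDedekindDomain_of_invariants (G := (⊤ : Subgroup SL(2, ℤ)).map (resAut hD))
    (resPoly M hρ) (resPoly_injective hρ) (isIntegralElem_resPoly hρ) ?_ hc fun b hb => ?_
  · rintro ⟨_, γ, -, rfl⟩ P
    exact resSmul_resPoly hρ hD γ P
  obtain ⟨⟨f, hf, hfb⟩, -⟩ := exists_invariant_sum_prod (H := ⊤) hD hker (b * c)
  obtain ⟨Q, rfl⟩ := exists_polyInt_eq M R f fun γ => hf γ (Subgroup.mem_top γ)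
  refine ⟨Q.map ρ, ?_⟩
  rw [resPoly_map, hfb, Finset.mul_sum]
  exact Finset.sum_congr rfl fun g _ => by rw [smul_mul', hb]

/-- **Descent**: residual functions fixed by `H` come from `H`-invariant integral functions. -/
theorem exists_invariant_lift [IsIntegrallyClosed (Res M R ρ)] (hker : FaithfulAction M ρ hD)
    (H : Subgroup SL(2, ℤ)) {x : Res M R ρ} (hx : ∀ γ ∈ H, resSmul ρ hD γ x = x) :
    ∃ f : intFun M R, (∀ γ ∈ H, γ • f = f) ∧ toRes M R ρ f = x := by
  classical
  haveI := isDedekindDomain_res hD hρ hker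
  haveI : Finite (H.map (resAut hD)) := finite_map_resAut hD H
  letI : Fintype (H.map (resAut hD)) := Fintype.ofFinite _
  letI : Algebra k (Res M R ρ) := (resConst M hρ).toAlgebra
  haveI : SMulCommClass (H.map (resAut hD)) k (Res M R ρ) := ⟨fun g c y => by
    obtain ⟨γ, -, hγ⟩ := Subgroup.mem_map.mp g.2
    show (g : RingAut (Res M R ρ)) (resConst M hρ c * y) = resConst M hρ c * g • y
    rw [map_mul, ← hγ, resAut_apply, ← resPoly_C, resSmul_resPoly, resAut_apply]
    rw [show g • y = (g : RingAut (Res M R ρ)) y from rfl, ← hγ, resAut_apply]⟩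
  let T : Subalgebra k (Res M R ρ) :=
    { carrier := {y | ∃ f : intFun M R, (∀ γ ∈ H, γ • f = f) ∧ toRes M R ρ f = y}
      mul_mem' := fun ⟨a, ha, ha'⟩ ⟨b, hb, hb'⟩ =>
        ⟨a * b, fun γ hγ => by rw [smul_mul', ha γ hγ, hb γ hγ], by rw [map_mul, ha', hb']⟩
      add_mem' := fun ⟨a, ha, ha'⟩ ⟨b, hb, hb'⟩ =>
        ⟨a + b, fun γ hγ => by rw [smul_add, ha γ hγ, hb γ hγ], by rw [map_add, ha', hb']⟩
      algebraMap_mem' := fun c => by
        obtain ⟨c', rfl⟩ := hρ c
        exact ⟨constHom M R c', fun γ _ => smul_constHom M R γ c', (resConst_apply hρ c').symm⟩ }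
  refine mem_of_fixed T (k := k) (G := H.map (resAut hD))
    (fun P hP y => exists_const_sub_mem hρ P hP y) ?_
    (fun y => (exists_invariant_sum_prod hD hker y).2)
    (fun y => (exists_invariant_sum_prod hD hker y).1) ?_
  · rintro _ ⟨f, hf, rfl⟩ ⟨_, γ, hγ, rfl⟩
    show resSmul ρ hD γ (toRes M R ρ f) = toRes M R ρ f
    rw [resSmul_toRes, hf γ hγ]
  · rintro ⟨_, γ, hγ, rfl⟩
    exact hx γ hγ

end Action

end FermatAgent.Igusa.Down
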